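import Fermat.Agent.MWH.Const

/-!
# Elementary facts on the embedding of a curve
-/

set_option autoImplicit false
set_option linter.unusedSectionVars false

noncomputable section

namespace Fermat.Agent.MWS

open AlgebraicCurve Fermat.Agent.Curves Fermat.Agent.PicFlat Fermat.Agent.MWH

variable {K F ι : Type*} [Field K] [IsAlgClosed K] [Field F] [Algebra K F] [IsFunctionField K F]

namespace EB

variable (E : Emb K F)

theorem f_mem_rr (i : Fin (E.r + 1)) :
    E.f i ∈ riemannRochSpace (Finsupp.single E.inf (E.m : ℤ)) := by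
  rw [← E.span]
  exact Submodule.subset_span ⟨i, rfl⟩

theorem G_mem_rr (c : Fin (E.r + 1) → K) :
    E.G c ∈ riemannRochSpace (Finsupp.single E.inf (E.m : ℤ)) :=
  Submodule.sum_mem _ fun i _ => Submodule.smul_mem _ _ (f_mem_rr E i)

theorem mem_of_rr {D : Divisor K F} {f : F} (hf : f ∈ riemannRochSpace D) {P : Place K F}
    (hP : D P ≤ 0) : f ∈ P.toValuationSubring := by
  rcases eq_or_ne f 0 with rfl | hf0
  · exact zero_mem _
  rw [mem_iff_ord _ hf0]
  have := (mem_iff_of_ne hf0).1 hf P
  omega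

theorem G_mem {P : Place K F} (hP : P ≠ E.inf) (c : Fin (E.r + 1) → K) :
    E.G c ∈ P.toValuationSubring := by
  refine mem_of_rr (G_mem_rr E c) ?_
  rw [Finsupp.single_eq_of_ne hP]

theorem f_mem {P : Place K F} (hP : P ≠ E.inf) (i : Fin (E.r + 1)) :
    E.f i ∈ P.toValuationSubring := by
  refine mem_of_rr (f_mem_rr E i) ?_
  rw [Finsupp.single_eq_of_ne hP]

theorem G_eq_zero {c : Fin (E.r + 1) → K} (h : E.G c = 0) : c = 0 := by
  have h1 := Fintype.linearIndependent_iff.1 E.li c h
  exact funext h1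

theorem G_ne_zero {c : Fin (E.r + 1) → K} (hc : c ≠ 0) : E.G c ≠ 0 := fun h =>
  hc (G_eq_zero E h)

theorem dv_nonneg {c : Fin (E.r + 1) → K} (hc : c ≠ 0) : 0 ≤ E.dv c := by
  have h := G_mem_rr E c
  rwa [mem_iff_div (G_ne_zero E hc)] at h

theorem degree_dv (c : Fin (E.r + 1) → K) : Divisor.degree (E.dv c) = E.m := by
  rw [Emb.dv, map_add, degree_divisorOf, degree_single_one, zero_add]

theorem value_sum {κ : Type*} (s : Finset κ) (P : Place K F) (c : κ → K) (f : κ → F)
    (hf : ∀ i, f i ∈ P.toValuationSubring) :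
    value P (∑ i ∈ s, c i • f i) = ∑ i ∈ s, c i * value P (f i) := by
  classical
  induction s using Finset.induction_on with
  | empty =>
    have := value_algebraMap P (0 : K)
    rw [map_zero] at this
    simpa using this
  | insert a s ha ih =>
    rw [Finset.sum_insert ha, Finset.sum_insert ha, value_add, ih]
    · rw [Algebra.smul_def, value_mul _ (P.algebraMap_mem' _) (hf a), value_algebraMap]
    · rw [Algebra.smul_def]
      exact mul_mem (P.algebraMap_mem' _) (hf a)
    · refine sum_mem fun i _ => ?_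
      rw [Algebra.smul_def]
      exact mul_mem (P.algebraMap_mem' _) (hf i)

theorem x_of_ne {P : Place K F} (hP : P ≠ E.inf) (i : Fin (E.r + 1)) :
    E.x P i = value P (E.f i) := by
  rw [Emb.x, if_neg hP]

theorem x_inf (i : Fin (E.r + 1)) :
    E.x E.inf i = if i = Fin.last E.r then 1 else 0 := by
  rw [Emb.x, if_pos rfl]

theorem x_zero {P : Place K F} (hP : P ≠ E.inf) : E.x P 0 = 1 := by
  rw [x_of_ne E hP, E.zero]
  have := value_algebraMap P (1 : K)
  rwa [map_one] at this

theorem x_ne_zero (P : Place K F) : E.x P ≠ 0 := by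
  intro h
  by_cases hP : P = E.inf
  · subst hP
    have := congrFun h (Fin.last E.r)
    rw [x_inf, if_pos rfl] at this
    exact one_ne_zero this
  · have := congrFun h 0
    rw [x_zero E hP] at this
    exact one_ne_zero this

theorem dot_of_ne {P : Place K F} (hP : P ≠ E.inf) (c : Fin (E.r + 1) → K) :
    E.dot c P = value P (E.G c) := by
  rw [Emb.G, value_sum _ _ _ _ (f_mem E hP), Emb.dot]
  exact Finset.sum_congr rfl fun i _ => by rw [x_of_ne E hP]

theorem dot_inf (c : Fin (E.r + 1) → K) : E.dot c E.inf = c (Fin.last E.r) := by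
  rw [Emb.dot, Finset.sum_eq_single (Fin.last E.r)]
  · rw [x_inf, if_pos rfl, mul_one]
  · intro i _ hi
    rw [x_inf, if_neg hi, mul_zero]
  · simp

theorem pos_of_dot {c : Fin (E.r + 1) → K} (hc : c ≠ 0) {P : Place K F} (h : E.dot c P = 0) :
    1 ≤ E.dv c P := by
  by_cases hP : P = E.inf
  · subst hP
    rw [dot_inf] at h
    have h1 : E.G c ∈ riemannRochSpace (Finsupp.single E.inf ((E.m : ℤ) - 1)) := by
      refine Submodule.sum_mem _ fun i _ => ?_
      by_cases hi : i = Fin.last E.r
      · rw [hi, h, zero_smul]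
        exact Submodule.zero_mem _
      · exact Submodule.smul_mem _ _ (E.ord_lt i hi)
    have h2 := (mem_iff_of_ne (G_ne_zero E hc)).1 h1 E.inf
    rw [Finsupp.single_eq_same] at h2
    rw [Emb.dv, Finsupp.add_apply, Finsupp.single_eq_same, divisorOf_apply]
    omega
  · rw [dot_of_ne E hP, value_eq_zero_iff _ (G_mem E hP c), val_lt_one_iff,
      or_iff_right (G_ne_zero E hc)] at h
    rw [Emb.dv, Finsupp.add_apply, Finsupp.single_eq_of_ne hP, divisorOf_apply]
    omega

theorem dot_of_pos {c : Fin (E.r + 1) → K} {P : Place K F} (h : 1 ≤ E.dv c P) :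
    E.dot c P = 0 := by
  classical
  by_cases hc : c = 0
  · subst hc
    simp [Emb.dot]
  by_cases hP : P = E.inf
  · subst hP
    rw [dot_inf]
    by_contra hne
    rw [Emb.dv, Finsupp.add_apply, Finsupp.single_eq_same, divisorOf_apply] at h
    have h1 : E.G c = (∑ i ∈ Finset.univ.erase (Fin.last E.r), c i • E.f i) +
        c (Fin.last E.r) • E.f (Fin.last E.r) := by
      rw [Finset.sum_erase_add _ _ (Finset.mem_univ _)]
      rfl
    have h2 : (∑ i ∈ Finset.univ.erase (Fin.last E.r), c i • E.f i) ∈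
        riemannRochSpace (Finsupp.single E.inf ((E.m : ℤ) - 1)) := by
      refine Submodule.sum_mem _ fun i hi => Submodule.smul_mem _ _ (E.ord_lt i ?_)
      exact Finset.ne_of_mem_erase hi
    have h3 : E.G c ∈ riemannRochSpace (Finsupp.single E.inf ((E.m : ℤ) - 1)) := by
      rw [mem_iff_of_ne (G_ne_zero E hc)]
      intro P
      by_cases hP : P = E.inf
      · subst hP
        rw [Finsupp.single_eq_same]
        omega
      · have := (mem_iff_of_ne (G_ne_zero E hc)).1 (G_mem_rr E c) P
        rw [Finsupp.single_eq_of_ne hP] at this ⊢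
        exact this
    have h4 : c (Fin.last E.r) • E.f (Fin.last E.r) ∈
        riemannRochSpace (Finsupp.single E.inf ((E.m : ℤ) - 1)) := by
      have := Submodule.sub_mem _ h3 h2
      rwa [h1, add_sub_cancel_left] at this
    have h5 : E.f (Fin.last E.r) ∈ riemannRochSpace (Finsupp.single E.inf ((E.m : ℤ) - 1)) := by
      have := Submodule.smul_mem _ (c (Fin.last E.r))⁻¹ h4
      rwa [smul_smul, inv_mul_cancel₀ hne, one_smul] at this
    have h6 := (mem_iff_of_ne (E.li.ne_zero _)).1 h5 E.inf
    rw [Finsupp.single_eq_same, E.ord_last] at h6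
    omega
  · rw [dot_of_ne E hP, value_eq_zero_iff _ (G_mem E hP c), val_lt_one_iff,
      or_iff_right (G_ne_zero E hc)]
    rw [Emb.dv, Finsupp.add_apply, Finsupp.single_eq_of_ne hP, divisorOf_apply] at h
    omega

variable (A : AVFam K ι)

theorem nx_pos (v : ι) (P : Place K F) : 0 < E.nx A v P := A.nrm_pos v (x_ne_zero E P)

theorem le_nx (v : ι) (P : Place K F) (i : Fin (E.r + 1)) : A.nv v (E.x P i) ≤ E.nx A v P :=
  A.le_nrm v (E.x P) i

theorem one_le_nx (v : ι) {P : Place K F} (hP : P ≠ E.inf) : 1 ≤ E.nx A v P := by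
  have := le_nx E A v P 0
  rwa [x_zero E hP, map_one] at this

theorem nx_inf (v : ι) : E.nx A v E.inf = 1 := by
  refine le_antisymm (A.nrm_le fun i => ?_) ?_
  · rw [x_inf]
    split_ifs
    · rw [map_one]
    · rw [map_zero]; exact zero_le_one
  · have := le_nx E A v E.inf (Fin.last E.r)
    rwa [x_inf, if_pos rfl, map_one] at this

theorem one_le_nx' (v : ι) (P : Place K F) : 1 ≤ E.nx A v P := by
  by_cases hP : P = E.inf
  · rw [hP, nx_inf]
  · exact one_le_nx E A v hP

theorem dl_nonneg (v : ι) (P Q : Place K F) : 0 ≤ E.dl A v P Q := by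
  refine div_nonneg (Real.iSup_nonneg fun _ => (A.nv v).nonneg _)
    (mul_nonneg (nx_pos E A v P).le (nx_pos E A v Q).le)

theorem dl_comm (v : ι) (P Q : Place K F) : E.dl A v P Q = E.dl A v Q P := by
  unfold Emb.dl
  rw [mul_comm (E.nx A v P)]
  congr 1
  refine iSup_congr fun ij => ?_
  rw [← AbsoluteValue.map_neg]
  congr 1
  ring

theorem dl_self (v : ι) (P : Place K F) : E.dl A v P P = 0 := by
  unfold Emb.dl
  rw [div_eq_zero_iff]
  left
  have : ∀ ij : Fin (E.r + 1) × Fin (E.r + 1),
      A.nv v (E.x P ij.1 * E.x P ij.2 - E.x P ij.2 * E.x P ij.1) = 0 := by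
    intro ij
    rw [mul_comm (E.x P ij.2), sub_self, map_zero]
  simp [this]

theorem cst_pos (n : ℕ) (v : ι) : 0 < A.cst n v := (A.mc_cst n).pos v

theorem minor_le (v : ι) (P Q : Place K F) (i j : Fin (E.r + 1)) :
    A.nv v (E.x P i * E.x Q j - E.x P j * E.x Q i) ≤
      A.cst 2 v * (E.nx A v P * E.nx A v Q) := by
  have h := A.sum_le' (fun t : Bool => if t then E.x P i * E.x Q j else -(E.x P j * E.x Q i)) v
    (M := E.nx A v P * E.nx A v Q) (mul_nonneg (nx_pos E A v P).le (nx_pos E A v Q).le) ?_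
  · simpa [sub_eq_add_neg] using h
  · rintro (_ | _)
    · simp only [Bool.false_eq_true, if_false, AbsoluteValue.map_neg, map_mul]
      exact mul_le_mul (le_nx E A v P j) (le_nx E A v Q i) ((A.nv v).nonneg _)
        (nx_pos E A v P).le
    · simp only [if_true, map_mul]
      exact mul_le_mul (le_nx E A v P i) (le_nx E A v Q j) ((A.nv v).nonneg _)
        (nx_pos E A v P).le

theorem dl_le (v : ι) (P Q : Place K F) : E.dl A v P Q ≤ A.cst 2 v := by
  unfold Emb.dl
  rw [div_le_iff₀ (mul_pos (nx_pos E A v P) (nx_pos E A v Q))]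
  exact ciSup_le fun ij => minor_le E A v P Q ij.1 ij.2

theorem dD_zero (v : ι) (P : Place K F) : E.dD A v P 0 = 1 := by
  simp [Emb.dD]

theorem dD_single (v : ι) (P Q : Place K F) (n : ℕ) :
    E.dD A v P (Finsupp.single Q (n : ℤ)) = E.dl A v P Q ^ n := by
  unfold Emb.dD
  rw [Finsupp.prod_single_index] <;> simp

theorem dD_add (v : ι) (P : Place K F) {D D' : Divisor K F} (hD : 0 ≤ D) (hD' : 0 ≤ D') :
    E.dD A v P (D + D') = E.dD A v P D * E.dD A v P D' := by
  classical
  have key : ∀ (D : Divisor K F) (s : Finset (Place K F)), D.support ⊆ s →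
      E.dD A v P D = ∏ Q ∈ s, E.dl A v P Q ^ (D Q).toNat := by
    intro D s hs
    unfold Emb.dD
    exact Finsupp.prod_of_support_subset _ hs _ (by simp)
  rw [key D (D.support ∪ D'.support) Finset.subset_union_left,
    key D' (D.support ∪ D'.support) Finset.subset_union_right,
    key (D + D') (D.support ∪ D'.support) Finsupp.support_add, ← Finset.prod_mul_distrib]
  refine Finset.prod_congr rfl fun Q _ => ?_
  rw [← pow_add, Finsupp.add_apply, Int.toNat_add (hD Q) (hD' Q)]

theorem dD_nonneg (v : ι) (P : Place K F) (D : Divisor K F) : 0 ≤ E.dD A v P D :=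
  Finset.prod_nonneg fun _ _ => pow_nonneg (dl_nonneg E A v P _) _

theorem dD_le (v : ι) (P : Place K F) {D : Divisor K F} (hD : 0 ≤ D) :
    E.dD A v P D ≤ A.cst 2 v ^ (Divisor.degree D).toNat := by
  classical
  have h1 : (Divisor.degree D).toNat = ∑ Q ∈ D.support, (D Q).toNat := by
    rw [degree_eq_sum, Finsupp.sum]
    zify
    rw [Int.toNat_of_nonneg (Finset.sum_nonneg fun Q _ => hD Q)]
    exact Finset.sum_congr rfl fun Q _ => (Int.toNat_of_nonneg (hD Q)).symm
  rw [h1, ← Finset.prod_pow_eq_pow_sum]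
  exact Finset.prod_le_prod (fun Q _ => pow_nonneg (dl_nonneg E A v P Q) _)
    fun Q _ => pow_le_pow_left₀ (dl_nonneg E A v P Q) (dl_le E A v P Q) _

theorem dD_sum {κ : Type*} (v : ι) (P : Place K F) (s : Finset κ) (Q : κ → Place K F) :
    E.dD A v P (∑ k ∈ s, Finsupp.single (Q k) 1) = ∏ k ∈ s, E.dl A v P (Q k) := by
  classical
  induction s using Finset.induction_on with
  | empty => simp [dD_zero]
  | insert a s ha ih =>
    rw [Finset.sum_insert ha, Finset.prod_insert ha, dD_add, ih]
    · have := dD_single E A v P (Q a) 1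
      rw [Nat.cast_one, pow_one] at this
      rw [this]
    · rw [Finsupp.single_nonneg]; norm_num
    · exact Finset.sum_nonneg fun k _ => by rw [Finsupp.single_nonneg]; norm_num

end EB

end Fermat.Agent.MWS
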