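import Fermat.Agent.MWS.GlobQ

/-!
# Northcott's theorem for stable effective divisors
-/

set_option autoImplicit false
set_option linter.unusedSectionVars false
set_option linter.style.haveILetI false

noncomputable section

namespace Fermat.Agent.MWS

open AlgebraicCurve Fermat.Agent.Curves Fermat.Agent.PicFlat Fermat.Agent.MWH Fermat.Agent.MWG
open SemilinearAut Polynomial
open scoped Pointwise

variable {K F : Type*} [Field K] [IsAlgClosed K] [CharZero K] [Field F] [Algebra K F]
  [IsFunctionField K F]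

/-- heights of polynomials with given roots -/
theorem coeff_le {L ι α : Type*} [Field L] (A : AVFam L ι) (v : ι) (s : Finset α) (z : α → L)
    (n : α → ℕ) (M : α → ℝ) (hM : ∀ i ∈ s, 1 ≤ M i) (hz : ∀ i ∈ s, A.nv v (z i) ≤ M i) (k : ℕ) :
    A.nv v ((∏ i ∈ s, (X - C (z i)) ^ n i).coeff k) ≤
      A.cst 2 v ^ (∑ i ∈ s, n i) * ∏ i ∈ s, M i ^ n i := by
  classical
  have hc := (A.mc_cst 2).one_le v
  have hc0 := (A.mc_cst 2).nonneg v
  -- one factor
  have step : ∀ (p : L[X]) (a : L) (N B : ℝ), 0 ≤ B → 1 ≤ N → A.nv v a ≤ N →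
      (∀ k, A.nv v (p.coeff k) ≤ B) → ∀ k, A.nv v (((X - C a) * p).coeff k) ≤
        A.cst 2 v * (N * B) := by
    intro p a N B hB hN ha hp k
    have h1 : ((X - C a) * p).coeff k = (if k = 0 then 0 else p.coeff (k - 1)) + -(a * p.coeff k) := by
      rw [sub_mul, coeff_sub, coeff_C_mul]
      rcases k with _ | k
      · rw [mul_comm X p, coeff_mul_X_zero, if_pos rfl, sub_eq_add_neg]
      · rw [mul_comm X p, coeff_mul_X, if_neg (Nat.succ_ne_zero k), Nat.add_sub_cancel, sub_eq_add_neg]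
    have h2 := A.sum_le' (fun t : Bool => if t then (if k = 0 then 0 else p.coeff (k - 1)) else
      -(a * p.coeff k)) v (M := N * B) (mul_nonneg (by linarith) hB) ?_
    · rw [h1]
      simpa using h2
    · rintro (_ | _)
      · simp only [Bool.false_eq_true, if_false, AbsoluteValue.map_neg, map_mul]
        exact mul_le_mul ha (hp k) ((A.nv v).nonneg _) (by linarith)
      · simp only [if_true]
        split_ifs
        · rw [map_zero]; exact mul_nonneg (by linarith) hB
        · exact (hp _).trans (le_mul_of_one_le_left hB hN)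
  have steps : ∀ (m : ℕ) (p : L[X]) (a : L) (N B : ℝ), 0 ≤ B → 1 ≤ N → A.nv v a ≤ N →
      (∀ k, A.nv v (p.coeff k) ≤ B) → ∀ k, A.nv v (((X - C a) ^ m * p).coeff k) ≤
        A.cst 2 v ^ m * (N ^ m * B) := by
    intro m
    induction m with
    | zero =>
      intro p a N B _ _ _ hp k
      simpa using hp k
    | succ m ih =>
      intro p a N B hB hN ha hp k
      have h1 : (X - C a) ^ (m + 1) * p = (X - C a) * ((X - C a) ^ m * p) := by ring
      have h2 := step ((X - C a) ^ m * p) a N (A.cst 2 v ^ m * (N ^ m * B))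
        (mul_nonneg (pow_nonneg hc0 _) (mul_nonneg (pow_nonneg (by linarith) _) hB)) hN ha
        (ih p a N B hB hN ha hp) k
      rw [h1]
      refine h2.trans (le_of_eq ?_)
      ring
  induction s using Finset.induction_on generalizing k with
  | empty =>
    rw [Finset.prod_empty, Finset.prod_empty, Finset.sum_empty, pow_zero, one_mul, coeff_one]
    split_ifs
    · rw [map_one]
    · rw [map_zero]; exact zero_le_one
  | insert a s ha ih =>
    rw [Finset.prod_insert ha, Finset.prod_insert ha, Finset.sum_insert ha]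
    have h1 := steps (n a) (∏ i ∈ s, (X - C (z i)) ^ n i) (z a) (M a)
      (A.cst 2 v ^ (∑ i ∈ s, n i) * ∏ i ∈ s, M i ^ n i)
      (mul_nonneg (pow_nonneg hc0 _) (Finset.prod_nonneg fun i hi => pow_nonneg
        (zero_le_one.trans (hM i (Finset.mem_insert_of_mem hi))) _))
      (hM a (Finset.mem_insert_self a s)) (hz a (Finset.mem_insert_self a s))
      (fun k => ih (fun i hi => hM i (Finset.mem_insert_of_mem hi))
        (fun i hi => hz i (Finset.mem_insert_of_mem hi)) k) k
    refine h1.trans (le_of_eq ?_)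
    rw [pow_add]
    ring

/-- rational numbers of bounded height -/
theorem finite_rat (𝒢 : Glob K F) (B : ℝ) :
    {a : ℚ | LG (fun v => max 1 (𝒢.A.nv v (a : K))) ≤ B}.Finite := by
  classical
  obtain ⟨N, hN⟩ := exists_nat_ge (Real.exp B * Real.exp B)
  obtain ⟨N', hN'⟩ := exists_nat_ge (Real.exp B)
  refine ((Set.finite_Icc (-(N : ℤ)) N).prod (Set.finite_Icc 0 N')).image
    (fun x : ℤ × ℕ => (x.1 : ℚ) / (x.2 : ℚ)) |>.subset ?_
  intro a ha
  simp only [Set.mem_ofPred_eq] at ha
  let A := toQAV 𝒢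
  obtain ⟨D, hD, hint, hlog⟩ := A.exists_den (fun b : Bool => if b then 1 else a) true (by simp)
  obtain ⟨z, hz⟩ := hint false
  simp only [Bool.false_eq_true, if_false] at hz
  have hfin : (Function.support fun v => Real.log (max 1 (𝒢.A.nv v (a : K)))).Finite :=
    (ap_of_mc (𝒢.A.mc_bd (a : K))).log_fin
  have hsplit : LG (fun v => max 1 (𝒢.A.nv v (a : K))) =
      Real.log (max 1 (𝒢.A.nv none (a : K))) +
        ∑ᶠ p : Nat.Primes, Real.log (max 1 (𝒢.A.nv (some p) (a : K))) := finsum_option hfin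
  have h1 : 0 ≤ ∑ᶠ p : Nat.Primes, Real.log (max 1 (𝒢.A.nv (some p) (a : K))) :=
    finsum_nonneg fun p => Real.log_nonneg (le_max_left _ _)
  have h2 : 0 ≤ Real.log (max 1 (𝒢.A.nv none (a : K))) := Real.log_nonneg (le_max_left _ _)
  have h3 : Real.log D ≤ B := by
    refine hlog.trans (le_trans ?_ ((by linarith : _ ≤ LG _).trans ha) )
    · refine le_of_eq (finsum_congr fun p => ?_)
      congr 1
      apply le_antisymm
      · refine A.sz_le (some p) _ fun b => ?_
        cases b
        · simp only [Bool.false_eq_true, if_false, eq_ratCast]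
          exact le_max_right _ _
        · simp only [if_true, map_one]
          exact le_max_left _ _
      · refine max_le ?_ ?_
        · have := A.le_sz (some p) (fun i : Bool => algebraMap ℚ K (if i then 1 else a)) true
          simpa using this
        · have := A.le_sz (some p) (fun i : Bool => algebraMap ℚ K (if i then 1 else a)) false
          simp only [Bool.false_eq_true, if_false, eq_ratCast] at this
          simp only [eq_ratCast]
          exact this
  have hDpos : (0 : ℝ) < D := by exact_mod_cast hD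
  have h4 : (D : ℝ) ≤ Real.exp B := by
    rw [← Real.exp_log hDpos]
    exact Real.exp_le_exp.2 h3
  have h5 : |(a : ℝ)| ≤ Real.exp B := by
    have h6 : Real.log (max 1 (𝒢.A.nv none (a : K))) ≤ B := by linarith
    rw [𝒢.nv_inf] at h6
    have h7 : (0 : ℝ) < max 1 |(a : ℝ)| := lt_of_lt_of_le one_pos (le_max_left _ _)
    have h8 := Real.exp_le_exp.2 h6
    rw [Real.exp_log h7] at h8
    exact (le_max_right _ _).trans h8
  refine ⟨(z, D), ⟨?_, ?_⟩, ?_⟩
  · have h6 : |(z : ℝ)| ≤ N := by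
      have h7 : (z : ℝ) = (D : ℝ) * (a : ℝ) := by
        have := congrArg (fun t : ℚ => (t : ℝ)) hz
        push_cast at this
        exact this.symm
      rw [h7, abs_mul, abs_of_pos hDpos]
      exact (mul_le_mul h4 h5 (abs_nonneg _) (Real.exp_pos _).le).trans hN
    have h8 := abs_le.1 h6
    constructor
    · exact_mod_cast h8.1
    · exact_mod_cast h8.2
  · refine ⟨Nat.zero_le _, ?_⟩
    exact_mod_cast h4.trans hN'
  · show (z : ℚ) / (D : ℚ) = a
    rw [← hz]
    have : (D : ℚ) ≠ 0 := by exact_mod_cast hD.ne'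
    field_simp

/-- **[N]** -/
theorem northcottN (𝒢 : Glob K F) : NorthcottN 𝒢 := by
  classical
  intro E hE e B
  -- the coefficient set
  set B' : ℝ := e.toNat * LG (𝒢.A.cst 2) + B with hB'
  set U : Set K := (fun a : ℚ => (a : K)) '' {a : ℚ | LG (fun v => max 1 (𝒢.A.nv v (a : K))) ≤ B'}
    with hU
  have hUf : U.Finite := (finite_rat 𝒢 B').image _
  set z : F := E.f (Fin.last E.r) with hz
  have hz0 : z ≠ 0 := E.li.ne_zero _
  set W : Set K := ⋃ (f : K[X]) (_ : f.natDegree ≤ e.toNat ∧ ∀ i, f.coeff i ∈ U),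
    ((f.map (RingHom.id K)).roots.toFinset : Set K) with hW
  have hWf : W.Finite := bUnion_roots_finite (RingHom.id K) e.toNat hUf
  -- the places
  set S : Set (Place K F) := ⋃ w ∈ W, {P | 0 < P.ord (z - algebraMap K F w)} with hS
  have hSf : S.Finite := hWf.biUnion fun w _ => finite_zeros _
  set T : Finset (Place K F) := insert E.inf hSf.toFinset with hT
  refine (Finset.finite_toSet (T.finsupp fun _ => Finset.Icc 0 e)).subset ?_
  rintro R ⟨hR0, hRfix, hRdeg, hRh⟩
  rw [Finset.mem_coe, Finset.mem_finsupp_iff]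
  have hdegsum : ∑ P ∈ R.support, R P = e := by
    rw [← hRdeg, degree_eq_sum]
    rfl
  have hRle : ∀ P, R P ≤ e := by
    intro P
    by_cases hP : P ∈ R.support
    · rw [← hdegsum]
      exact Finset.single_le_sum (f := fun P => R P) (fun Q _ => hR0 Q) hP
    · rw [Finsupp.notMem_support_iff.1 hP, ← hdegsum]
      exact Finset.sum_nonneg fun Q _ => hR0 Q
  refine ⟨?_, fun P _ => Finset.mem_Icc.2 ⟨hR0 P, hRle P⟩⟩
  -- the polynomial
  set s := R.support.erase E.inf with hs
  set Φ : K[X] := ∏ P ∈ s, (X - C (value P z)) ^ (R P).toNat with hΦ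
  have hmonic : Φ.Monic := monic_prod_of_monic _ _ fun P _ => (monic_X_sub_C _).pow _
  have hsum : ∑ P ∈ s, (R P).toNat ≤ e.toNat := by
    have h1 : ∑ P ∈ s, (R P).toNat ≤ ∑ P ∈ R.support, (R P).toNat :=
      Finset.sum_le_sum_of_subset (Finset.erase_subset _ _)
    refine h1.trans (le_of_eq ?_)
    rw [← hdegsum]
    zify
    rw [Int.toNat_of_nonneg (Finset.sum_nonneg fun Q _ => hR0 Q)]
    exact Finset.sum_congr rfl fun Q _ => Int.toNat_of_nonneg (hR0 Q)
  have hdeg : Φ.natDegree ≤ e.toNat := by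
    refine le_trans ?_ hsum
    rw [hΦ, natDegree_prod_of_monic _ _ fun P _ => (monic_X_sub_C _).pow _]
    refine Finset.sum_le_sum fun P _ => ?_
    rw [(monic_X_sub_C _).natDegree_pow, natDegree_X_sub_C, mul_one]
  -- stability
  have hsst : ∀ σ ∈ 𝒢.G, ∀ P ∈ s, σ • P ∈ s ∧ R (σ • P) = R P := by
    intro σ hσ P hP
    have h1 := SemilinearAut.divisor_smul_apply_smul σ R P
    rw [hRfix σ hσ] at h1
    refine ⟨Finset.mem_erase.2 ⟨?_, ?_⟩, h1⟩
    · have h2 := (Finset.mem_erase.1 hP).1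
      rw [hE.inf] at h2 ⊢
      exact smul_ne_inf 𝒢 hσ h2
    · rw [Finsupp.mem_support_iff, h1]
      exact Finsupp.mem_support_iff.1 (Finset.mem_erase.1 hP).2
  have hzP : ∀ P ∈ s, value P z = E.x P (Fin.last E.r) := fun P hP =>
    (EB.x_of_ne E (Finset.mem_erase.1 hP).1 _).symm
  have hfixΦ : ∀ σ ∈ 𝒢.G, Φ.map (baseAut σ : K →+* K) = Φ := by
    intro σ hσ
    rw [hΦ, Polynomial.map_prod]
    have h1 : ∀ P ∈ s, Polynomial.map (baseAut σ : K →+* K) ((X - C (value P z)) ^ (R P).toNat) =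
        (X - C (value (σ • P) z)) ^ (R (σ • P)).toNat := by
      intro P hP
      rw [Polynomial.map_pow, Polynomial.map_sub, Polynomial.map_X, Polynomial.map_C,
        (hsst σ hσ P hP).2, hzP P hP, hzP _ (hsst σ hσ P hP).1, x_smul hE hσ]
      rfl
    rw [Finset.prod_congr rfl h1]
    refine Finset.prod_bij (fun P _ => σ • P) (fun P hP => (hsst σ hσ P hP).1)
      (fun P _ Q _ h => MulAction.injective σ h) (fun Q hQ => ?_) (fun P _ => rfl)
    refine ⟨σ⁻¹ • Q, (hsst σ⁻¹ (inv_mem hσ) Q hQ).1, smul_inv_smul σ Q⟩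
  -- coefficients
  have hcoef : ∀ k, Φ.coeff k ∈ U := by
    intro k
    obtain ⟨a, ha⟩ := 𝒢.fixQ (Φ.coeff k) (fun σ hσ => by
      have := congrArg (fun p : K[X] => p.coeff k) (hfixΦ σ hσ)
      simpa [coeff_map] using this)
    refine ⟨a, ?_, ha⟩
    show LG (fun v => max 1 (𝒢.A.nv v (a : K))) ≤ B'
    rw [ha]
    have hnx : ∀ P, AP (fun v => E.nx 𝒢.A v P) := fun P => ap_nrm 𝒢.A (EB.x_ne_zero E P)
    have hprod : AP (fun v => ∏ P ∈ s, E.nx 𝒢.A v P ^ (R P).toNat) :=
      AP.prod _ fun P _ => (hnx P).pow _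
    have hcs := ap_of_mc (𝒢.A.mc_cst 2)
    have h1 : ∀ v, max 1 (𝒢.A.nv v (Φ.coeff k)) ≤
        𝒢.A.cst 2 v ^ e.toNat * ∏ P ∈ s, E.nx 𝒢.A v P ^ (R P).toNat := by
      intro v
      have h2 := coeff_le 𝒢.A v s (fun P => value P z) (fun P => (R P).toNat)
        (fun P => E.nx 𝒢.A v P) (fun P _ => EB.one_le_nx' E 𝒢.A v P)
        (fun P hP => by rw [hzP P hP]; exact EB.le_nx E 𝒢.A v P _) k
      have h3 : 1 ≤ ∏ P ∈ s, E.nx 𝒢.A v P ^ (R P).toNat := by
        have := Finset.prod_le_prod (s := s) (f := fun _ => (1 : ℝ))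
          (g := fun P => E.nx 𝒢.A v P ^ (R P).toNat) (fun _ _ => zero_le_one)
          (fun P _ => one_le_pow₀ (EB.one_le_nx' E 𝒢.A v P))
        rwa [Finset.prod_const_one] at this
      have h4 := (𝒢.A.mc_cst 2).one_le v
      refine max_le ?_ (h2.trans ?_)
      · exact one_le_mul_of_one_le_of_one_le (one_le_pow₀ h4) h3
      · exact mul_le_mul_of_nonneg_right (pow_le_pow_right₀ h4 hsum) (by linarith)
    have h5 := LG_mono (ap_of_mc (𝒢.A.mc_bd (Φ.coeff k))) ((hcs.pow e.toNat).mul hprod) h1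
    rw [LG_mul (hcs.pow e.toNat) hprod, LG_pow] at h5
    have h6 : LG (fun v => ∏ P ∈ s, E.nx 𝒢.A v P ^ (R P).toNat) ≤ B := hRh
    have h7 : LG (𝒢.A.bd (Φ.coeff k)) = LG (fun v => max 1 (𝒢.A.nv v (Φ.coeff k))) := rfl
    rw [← h7]
    refine h5.trans ?_
    rw [hB']
    have h8 : LG (fun v => 𝒢.A.cst 2 v) = LG (𝒢.A.cst 2) := rfl
    rw [h8]
    linarith
  -- conclusion
  intro P hP
  rw [hT, Finset.mem_insert]
  by_cases hPinf : P = E.inf
  · exact Or.inl hPinf
  right
  have hPs : P ∈ s := Finset.mem_erase.2 ⟨hPinf, hP⟩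
  rw [Set.Finite.mem_toFinset, hS, Set.mem_iUnion₂]
  refine ⟨value P z, ?_, ?_⟩
  · rw [hW, Set.mem_iUnion₂]
    refine ⟨Φ, ⟨hdeg, hcoef⟩, ?_⟩
    rw [Polynomial.map_id, Finset.mem_coe, Multiset.mem_toFinset, mem_roots hmonic.ne_zero,
      IsRoot.def, hΦ, eval_prod]
    refine Finset.prod_eq_zero hPs ?_
    rw [eval_pow, eval_sub, eval_X, eval_C, sub_self, zero_pow]
    have h1 := Finsupp.mem_support_iff.1 hP
    have h2 := hR0 P
    rw [Finsupp.zero_apply] at h2
    omega
  · show 0 < P.ord (z - algebraMap K F (value P z))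
    have h1 := value_spec P (EB.f_mem E hPinf (Fin.last E.r))
    rw [val_lt_one_iff] at h1
    refine h1.resolve_left fun h2 => ?_
    have h3 : z = algebraMap K F (value P z) := sub_eq_zero.1 h2
    have h4 := E.ord_last
    rw [← hz, h3, ord_algebraMap] at h4
    have := E.pos
    omega

end Fermat.Agent.MWS
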