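import Mathlib

/-!
# Absolute values above the places of `ℚ`, heights of rational families
-/

set_option autoImplicit false

noncomputable section

namespace Fermat.Agent.MWS

open Real

/-- a family of absolute values above the places of `ℚ` -/
structure QAV (K : Type*) [Field K] [Algebra ℚ K] where
  nv : Option Nat.Primes → AbsoluteValue K ℝ
  inf : ∀ q : ℚ, nv none (algebraMap ℚ K q) = |(q : ℝ)|
  fin : ∀ (p : Nat.Primes) (q : ℚ), nv (some p) (algebraMap ℚ K q) = ((padicNorm p q : ℚ) : ℝ)
  na : ∀ p, IsNonarchimedean (nv (some p))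
  triv : ∀ α : K, α ≠ 0 → {v | nv v α ≠ 1}.Finite

variable {K : Type*} [Field K] [Algebra ℚ K] (A : QAV K)

/-- the local size of a finite family -/
def QAV.sz {ι : Type*} (v : Option Nat.Primes) (a : ι → K) : ℝ := ⨆ i, A.nv v (a i)

theorem QAV.le_sz {ι : Type*} [Finite ι] (v : Option Nat.Primes) (a : ι → K) (i : ι) :
    A.nv v (a i) ≤ A.sz v a :=
  le_ciSup (Set.finite_range fun i => A.nv v (a i)).bddAbove i

theorem QAV.sz_le {ι : Type*} [Nonempty ι] (v : Option Nat.Primes) (a : ι → K) {C : ℝ}
    (h : ∀ i, A.nv v (a i) ≤ C) : A.sz v a ≤ C := ciSup_le h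

theorem QAV.exists_sz {ι : Type*} [Finite ι] [Nonempty ι] (v : Option Nat.Primes) (a : ι → K) :
    ∃ i, A.sz v a = A.nv v (a i) := by
  obtain ⟨i, hi⟩ := exists_eq_ciSup_of_finite (f := fun i => A.nv v (a i))
  exact ⟨i, hi.symm⟩

theorem QAV.sz_pos {ι : Type*} [Finite ι] (v : Option Nat.Primes) {a : ι → K} {i : ι}
    (h : a i ≠ 0) : 0 < A.sz v a :=
  lt_of_lt_of_le ((A.nv v).pos h) (A.le_sz v a i)

theorem QAV.sz_mul {ι : Type*} [Finite ι] [Nonempty ι] (v : Option Nat.Primes) (a : ι → K) (t : K) :
    A.sz v (fun i => t * a i) = A.nv v t * A.sz v a := by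
  apply le_antisymm
  · refine A.sz_le v _ fun i => ?_
    rw [map_mul]
    exact mul_le_mul_of_nonneg_left (A.le_sz v a i) (AbsoluteValue.nonneg _ _)
  · obtain ⟨i, hi⟩ := A.exists_sz v a
    rw [hi, ← map_mul]
    exact A.le_sz v (fun i => t * a i) i

/-- the size is one for almost all places -/
theorem QAV.sz_fin {ι : Type*} [Finite ι] {a : ι → K} {i : ι} (h : a i ≠ 0) :
    {v | A.sz v a ≠ 1}.Finite := by
  haveI : Nonempty ι := ⟨i⟩
  have h1 : (⋃ j : ι, {v | a j ≠ 0 ∧ A.nv v (a j) ≠ 1}).Finite :=
    Set.finite_iUnion fun j => by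
      by_cases hj : a j = 0
      · refine Set.Finite.subset Set.finite_empty fun v hv => (hv.1 hj).elim
      · exact (A.triv _ hj).subset fun v hv => hv.2
  refine h1.subset fun v hv => ?_
  by_contra hcon
  apply hv
  have h2 : ∀ j, a j ≠ 0 → A.nv v (a j) = 1 := by
    intro j hj
    by_contra h3
    exact hcon (Set.mem_iUnion.mpr ⟨j, hj, h3⟩)
  apply le_antisymm
  · refine A.sz_le v _ fun j => ?_
    by_cases hj : a j = 0
    · rw [hj, map_zero]
      exact zero_le_one
    · exact (h2 j hj).le
  · rw [← h2 i h]
    exact A.le_sz v a i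

/-- the height of a family -/
def QAV.ht {ι : Type*} (a : ι → K) : ℝ := ∑ᶠ v, log (A.sz v a)

theorem QAV.ht_supp {ι : Type*} [Finite ι] {a : ι → K} {i : ι} (h : a i ≠ 0) :
    (Function.support fun v => log (A.sz v a)).Finite :=
  (A.sz_fin h).subset fun v hv h1 => hv (by
    show log (A.sz v a) = 0
    rw [h1, log_one])

theorem finsum_mono {ι : Type*} {f g : ι → ℝ} (hf : (Function.support f).Finite)
    (hg : (Function.support g).Finite) (h : ∀ i, f i ≤ g i) : ∑ᶠ i, f i ≤ ∑ᶠ i, g i := by
  classical
  rw [finsum_eq_sum_of_support_subset (s := (hf.union hg).toFinset) f (by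
      intro x hx
      rw [Set.Finite.coe_toFinset]
      exact Or.inl hx),
    finsum_eq_sum_of_support_subset (s := (hf.union hg).toFinset) g (by
      intro x hx
      rw [Set.Finite.coe_toFinset]
      exact Or.inr hx)]
  exact Finset.sum_le_sum fun i _ => h i

/-- sums over the places of `ℚ` -/
theorem finsum_option {f : Option Nat.Primes → ℝ} (hf : (Function.support f).Finite) :
    ∑ᶠ v, f v = f none + ∑ᶠ p : Nat.Primes, f (some p) := by
  classical
  have hf' : (Function.support fun p : Nat.Primes => f (some p)).Finite :=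
    hf.preimage (Set.injOn_of_injective (Option.some_injective _))
  rw [finsum_eq_sum_of_support_subset (s := insert none (hf'.toFinset.map Function.Embedding.some)),
    Finset.sum_insert (by simp), Finset.sum_map, finsum_eq_sum _ hf']
  · rfl
  · intro v hv
    rw [Finset.coe_insert]
    cases v with
    | none => exact Set.mem_insert _ _
    | some p =>
      refine Set.mem_insert_of_mem _ ?_
      rw [Finset.mem_coe, Finset.mem_map]
      exact ⟨p, hf'.mem_toFinset.mpr hv, rfl⟩

/-- prime factors as primes -/
def toPr (n : ℕ) (x : {x // x ∈ n.primeFactors}) : Nat.Primes :=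
  ⟨x.1, Nat.prime_of_mem_primeFactors x.2⟩

/-- sums over primes of a function given by a factorization -/
theorem log_eq_finsum {n : ℕ} (hn : n ≠ 0) :
    log n = ∑ᶠ p : Nat.Primes, (n.factorization p : ℝ) * log (p : ℕ) := by
  classical
  rw [finsum_eq_sum_of_support_subset (s := n.primeFactors.attach.image (toPr n)),
    Real.log_nat_eq_sum_factorization, Finsupp.sum, Nat.support_factorization]
  · rw [Finset.sum_image]
    · rw [← Finset.sum_attach]
      rfl
    · intro x _ y _ h
      exact Subtype.ext (congrArg (fun z : Nat.Primes => (z : ℕ)) h)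
  · intro p hp
    have h1 : n.factorization p ≠ 0 := by
      intro h
      apply hp
      show (n.factorization p : ℝ) * log (p : ℕ) = 0
      rw [h, Nat.cast_zero, zero_mul]
    rw [Finset.mem_coe, Finset.mem_image]
    refine ⟨⟨p, ?_⟩, Finset.mem_attach _ _, rfl⟩
    rw [← Nat.support_factorization, Finsupp.mem_support_iff]
    exact h1

theorem factorization_finite {n : ℕ} (hn : n ≠ 0) :
    (Function.support fun p : Nat.Primes => (n.factorization p : ℝ) * log (p : ℕ)).Finite := by
  have h1 : ({p : Nat.Primes | (p : ℕ) ∈ n.primeFactors}).Finite :=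
    (Set.Finite.preimage (Set.injOn_of_injective Subtype.val_injective)
      (Finset.finite_toSet n.primeFactors))
  refine h1.subset fun p hp => ?_
  show (p : ℕ) ∈ n.primeFactors
  rw [← Nat.support_factorization, Finsupp.mem_support_iff]
  intro h
  apply hp
  show (n.factorization p : ℝ) * log (p : ℕ) = 0
  rw [h, Nat.cast_zero, zero_mul]

theorem log_padicNorm_nat (p : Nat.Primes) {n : ℕ} (hn : n ≠ 0) :
    log ((padicNorm p (n : ℚ) : ℚ) : ℝ) = -((n.factorization p : ℝ) * log (p : ℕ)) := by
  haveI : Fact (p : ℕ).Prime := ⟨p.2⟩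
  rw [padicNorm.eq_zpow_of_nonzero (by exact_mod_cast hn), padicValRat.of_nat, Rat.cast_zpow,
    Rat.cast_natCast, Real.log_zpow, Nat.factorization_def _ p.2, Int.cast_neg, Int.cast_natCast,
    neg_mul]

/-- the product formula for natural numbers -/
theorem QAV.sum_nat {n : ℕ} (hn : n ≠ 0) : ∑ᶠ v, log (A.nv v (n : K)) = 0 := by
  have h0 : (n : K) = algebraMap ℚ K (n : ℚ) := (map_natCast _ n).symm
  have hn' : (n : K) ≠ 0 := by
    rw [h0, Ne, map_eq_zero_iff _ (algebraMap ℚ K).injective]
    exact_mod_cast hn
  rw [finsum_option ((A.triv _ hn').subset fun v hv h1 => hv (by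
    show log (A.nv v (n : K)) = 0
    rw [h1, log_one]))]
  have h1 : ∀ p : Nat.Primes, log (A.nv (some p) (n : K)) =
      -((n.factorization p : ℝ) * log (p : ℕ)) := fun p => by
    rw [h0, A.fin, log_padicNorm_nat p hn]
  simp_rw [h1]
  rw [finsum_neg_distrib, ← log_eq_finsum hn, h0, A.inf]
  push_cast
  rw [Nat.abs_cast, add_neg_cancel]

/-- the product formula for rational numbers -/
theorem QAV.sum_rat {q : ℚ} (hq : q ≠ 0) : ∑ᶠ v, log (A.nv v (algebraMap ℚ K q)) = 0 := by
  have h1 : (q.num.natAbs) ≠ 0 := Int.natAbs_ne_zero.mpr (Rat.num_ne_zero.mpr hq)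
  have h2 : q.den ≠ 0 := q.den_ne_zero
  have hinj := (algebraMap ℚ K).injective
  have hc : ∀ n : ℕ, n ≠ 0 → (n : K) ≠ 0 := fun n hn => by
    rw [← map_natCast (algebraMap ℚ K), Ne, map_eq_zero_iff _ hinj]
    exact_mod_cast hn
  have h3 : ∀ v, log (A.nv v (algebraMap ℚ K q)) =
      log (A.nv v (q.num.natAbs : K)) - log (A.nv v (q.den : K)) := by
    intro v
    have e : algebraMap ℚ K q * (q.den : K) = (q.num : K) := by
      rw [← map_natCast (algebraMap ℚ K), ← map_intCast (algebraMap ℚ K), ← map_mul,
        Rat.mul_den_eq_num]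
    have e2 : A.nv v (q.num : K) = A.nv v (q.num.natAbs : K) := by
      rcases Int.natAbs_eq q.num with h | h
      · conv_lhs => rw [h]
        rw [Int.cast_natCast]
      · conv_lhs => rw [h]
        rw [Int.cast_neg, Int.cast_natCast, map_neg_eq_map]
    have e3 := congrArg (A.nv v) e
    rw [map_mul, e2] at e3
    rw [← e3, log_mul ((A.nv v).ne_zero ?_) ((A.nv v).ne_zero (hc _ h2)), add_sub_cancel_right]
    rw [Ne, map_eq_zero_iff _ hinj]
    exact hq
  simp_rw [h3]
  have hs : ∀ n : ℕ, n ≠ 0 → (Function.support fun v => log (A.nv v (n : K))).Finite :=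
    fun n hn => (A.triv _ (hc n hn)).subset fun v hv h1 => hv (by
      show log (A.nv v (n : K)) = 0
      rw [h1, log_one])
  rw [finsum_sub_distrib (hs _ h1) (hs _ h2), A.sum_nat h1, A.sum_nat h2, sub_zero]

/-- the product formula for square roots of rational numbers -/
theorem QAV.sum_sqrt {α : K} (h0 : α ≠ 0) {q : ℚ} (hq : α ^ 2 = algebraMap ℚ K q) :
    ∑ᶠ v, log (A.nv v α) = 0 := by
  have hq0 : q ≠ 0 := by
    rintro rfl
    rw [map_zero] at hq
    exact h0 (pow_eq_zero_iff (two_ne_zero)|>.mp hq)
  have h1 := A.sum_rat hq0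
  have h2 : ∀ v, log (A.nv v (algebraMap ℚ K q)) = 2 * log (A.nv v α) := fun v => by
    rw [← hq, map_pow, log_pow]
    norm_num
  simp_rw [h2] at h1
  rw [← mul_finsum] at h1
  linarith

theorem QAV.ht_mul {ι : Type*} [Finite ι] {a : ι → K} {i : ι} (h : a i ≠ 0) {t : K} (ht : t ≠ 0)
    {q : ℚ} (hq : t ^ 2 = algebraMap ℚ K q) : A.ht (fun i => t * a i) = A.ht a := by
  haveI : Nonempty ι := ⟨i⟩
  unfold QAV.ht
  have h1 : ∀ v, log (A.sz v fun i => t * a i) = log (A.nv v t) + log (A.sz v a) := fun v => by
    rw [A.sz_mul, log_mul ((A.nv v).ne_zero ht) (A.sz_pos v h).ne']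
  simp_rw [h1]
  rw [finsum_add_distrib _ (A.ht_supp h), A.sum_sqrt ht hq, zero_add]
  exact (A.triv _ ht).subset fun v hv h1 => hv (by
      show log (A.nv v t) = 0
      rw [h1, log_one])

/-- a common denominator -/
theorem QAV.exists_den {ι : Type*} [Fintype ι] (q : ι → ℚ) (i₀ : ι) (h1 : q i₀ = 1) :
    ∃ D : ℕ, 0 < D ∧ (∀ i, ∃ z : ℤ, (D : ℚ) * q i = z) ∧
      log D ≤ ∑ᶠ p : Nat.Primes, log (A.sz (some p) fun i => algebraMap ℚ K (q i)) := by
  classical
  let D : ℕ := Finset.univ.lcm fun i => (q i).den
  have hdvd : ∀ i, (q i).den ∣ D := fun i => Finset.dvd_lcm (Finset.mem_univ i)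
  have hD : D ≠ 0 := by
    rw [Ne, Finset.lcm_eq_zero_iff]
    rintro ⟨i, -, hi⟩
    exact (q i).den_ne_zero hi
  refine ⟨D, Nat.pos_of_ne_zero hD, fun i => ?_, ?_⟩
  · obtain ⟨k, hk⟩ := hdvd i
    refine ⟨k * (q i).num, ?_⟩
    rw [hk]
    push_cast
    rw [mul_comm ((q i).den : ℚ) (k : ℚ), mul_assoc, mul_comm ((q i).den : ℚ), Rat.mul_den_eq_num]
  · have hne : algebraMap ℚ K (q i₀) ≠ 0 := by
      rw [h1, map_one]
      exact one_ne_zero
    rw [log_eq_finsum hD]
    refine finsum_mono (factorization_finite hD) ?_ fun p => ?_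
    · exact ((A.ht_supp (a := fun i => algebraMap ℚ K (q i)) hne).preimage
        (Set.injOn_of_injective (Option.some_injective _)))
    · haveI : Fact (p : ℕ).Prime := ⟨p.2⟩
      have hle1 : 1 ≤ A.sz (some p) fun i => algebraMap ℚ K (q i) := by
        have := A.le_sz (some p) (fun i => algebraMap ℚ K (q i)) i₀
        rwa [h1, map_one, map_one] at this
      by_cases h0 : D.factorization p = 0
      · rw [h0, Nat.cast_zero, zero_mul]
        exact log_nonneg hle1
      · -- some denominator carries the full power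
        have h2 : ∃ i, (p : ℕ) ^ D.factorization p ∣ (q i).den := by
          by_contra hcon
          push Not at hcon
          have h3 : D ∣ p ^ (D.factorization p - 1) * (D / p ^ D.factorization p) := by
            refine Finset.lcm_dvd fun i _ => ?_
            have h4 : (q i).den.factorization p < D.factorization p := by
              by_contra h5
              push Not at h5
              exact hcon i ((p.2.pow_dvd_iff_le_factorization (q i).den_ne_zero).mpr h5)
            rw [← Nat.factorization_le_iff_dvd (q i).den_ne_zero]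
            · intro ℓ
              have h6 : (D / (p : ℕ) ^ D.factorization p) ≠ 0 :=
                (Nat.ordCompl_pos p hD).ne'
              rw [Nat.factorization_mul (pow_ne_zero _ p.2.ne_zero) h6]
              by_cases hℓ : ℓ = p
              · subst hℓ
                rw [Finsupp.add_apply, Nat.Prime.factorization_pow p.2, Finsupp.single_eq_same]
                omega
              · rw [Finsupp.add_apply, Nat.factorization_ordCompl, Finsupp.erase_ne hℓ]
                have := (Nat.factorization_le_iff_dvd (q i).den_ne_zero hD).mpr (hdvd i) ℓ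
                omega
            · exact mul_ne_zero (pow_ne_zero _ p.2.ne_zero) (Nat.ordCompl_pos p hD).ne'
          have h4 := Nat.le_of_dvd (Nat.mul_pos (pow_pos p.2.pos _) (Nat.ordCompl_pos p hD)) h3
          have h5 : (p : ℕ) ^ D.factorization p * (D / (p : ℕ) ^ D.factorization p) = D :=
            Nat.ordProj_mul_ordCompl_eq_self D p
          have h6 : (p : ℕ) ^ D.factorization p = p * p ^ (D.factorization p - 1) := by
            rw [← pow_succ', Nat.sub_add_cancel (Nat.one_le_iff_ne_zero.mpr h0)]
          have h7 := Nat.ordCompl_pos p hD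
          have h8 : 0 < (p : ℕ) ^ (D.factorization p - 1) := pow_pos p.2.pos _
          have h9 := p.2.two_le
          rw [h6] at h5 h4
          nlinarith [Nat.mul_pos h8 (by rw [← h6]; exact h7 : 0 < D / (p * p ^ (D.factorization p - 1)))]
        obtain ⟨i, hi⟩ := h2
        have h3 : D.factorization p ≤ (q i).den.factorization p :=
          (p.2.pow_dvd_iff_le_factorization (q i).den_ne_zero).mp hi
        have h4 : log (A.nv (some p) (algebraMap ℚ K (q i))) =
            ((q i).den.factorization p : ℝ) * log (p : ℕ) := by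
          have hq0 : q i ≠ 0 := by
            intro h
            rw [h] at hi
            have h5 : (p : ℕ) ^ D.factorization p = 1 := Nat.dvd_one.mp (by simpa using hi)
            exact h0 ((Nat.pow_eq_one.mp h5).resolve_left p.2.one_lt.ne')
          have hpnum : ¬ (p : ℕ) ∣ (q i).num.natAbs := by
            intro h5
            have h6 : (p : ℕ) ∣ (q i).den := (dvd_pow_self _ h0).trans hi
            have h7 := (q i).reduced
            exact p.2.one_lt.ne' (Nat.eq_one_of_dvd_coprimes h7 h5 h6)
          rw [A.fin]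
          have e : q i = ((q i).num : ℚ) / ((q i).den : ℚ) := (Rat.num_div_den _).symm
          have e1 : padicNorm p (q i) = (padicNorm p ((q i).den : ℚ))⁻¹ := by
            conv_lhs => rw [e]
            rw [padicNorm.div, show padicNorm p ((q i).num : ℚ) = 1 from ?_, one_div]
            rw [padicNorm.int_eq_one_iff]
            intro h5
            exact hpnum (Int.natCast_dvd.mp h5)
          rw [e1]
          push_cast
          rw [log_inv, log_padicNorm_nat p (q i).den_ne_zero, neg_neg]
        calc (D.factorization p : ℝ) * log (p : ℕ)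
            ≤ ((q i).den.factorization p : ℝ) * log (p : ℕ) := by
              refine mul_le_mul_of_nonneg_right (by exact_mod_cast h3) ?_
              exact log_nonneg (by exact_mod_cast p.2.one_lt.le)
          _ = log (A.nv (some p) (algebraMap ℚ K (q i))) := h4.symm
          _ ≤ _ := by
              refine log_le_log ?_ (A.le_sz (some p) (fun i => algebraMap ℚ K (q i)) i)
              refine (A.nv _).pos ?_
              rw [Ne, map_eq_zero_iff _ (algebraMap ℚ K).injective]
              intro h
              rw [h] at hi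
              have h5 : (p : ℕ) ^ D.factorization p = 1 := Nat.dvd_one.mp (by simpa using hi)
              exact h0 ((Nat.pow_eq_one.mp h5).resolve_left p.2.one_lt.ne')

end Fermat.Agent.MWS
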