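import Fermat.Agent.MWS.CovB

/-!
# Covolumes and multiplication by a section: the statement [B]
-/

set_option autoImplicit false
set_option linter.unusedSectionVars false
set_option linter.style.haveILetI false

noncomputable section

namespace Fermat.Agent.MWS

open AlgebraicCurve Fermat.Agent.Curves Fermat.Agent.PicFlat Fermat.Agent.MWH Fermat.Agent.MWG
open SemilinearAut Matrix Fermat.Agent.GoodRed
open scoped Pointwise

variable {K F : Type*} [Field K] [IsAlgClosed K] [CharZero K] [Field F] [Algebra K F]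
  [IsFunctionField K F]

theorem dvs_apply [DecidableEq (Place K F)] (s : Finset (Place K F)) (P : Place K F) :
    dvs s P = if P ∈ s then 1 else 0 := by
  rw [dvs, Finsupp.finsetSum_apply]
  split_ifs with h
  · rw [Finset.sum_eq_single P]
    · rw [Finsupp.single_eq_same]
    · intro Q _ hQ
      rw [Finsupp.single_eq_of_ne (Ne.symm hQ)]
    · intro h1
      exact absurd h h1
  · refine Finset.sum_eq_zero fun Q hQ => ?_
    rw [Finsupp.single_eq_of_ne]
    rintro rfl
    exact h hQ

theorem degree_dvs (s : Finset (Place K F)) : Divisor.degree (dvs s) = s.card := by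
  rw [dvs, map_sum]
  simp only [degree_single_one]
  simp

theorem stable_of_fixD {𝒢 : Glob K F} {s : Finset (Place K F)} (h : 𝒢.FixD (dvs s)) :
    𝒢.Stable s := by
  classical
  intro σ hσ P hP
  have h1 := SemilinearAut.divisor_smul_apply_smul σ (dvs s) P
  rw [h σ hσ, dvs_apply, dvs_apply, if_pos hP] at h1
  by_contra h2
  rw [if_neg h2] at h1
  exact zero_ne_one h1

theorem dvf_enum (s : Finset (Place K F)) :
    dvf (fun j : Fin s.card => (s.equivFin.symm j : Place K F)) = dvs s := by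
  unfold dvf dvs
  rw [← Finset.sum_attach s]
  exact Equiv.sum_comp s.equivFin.symm (fun x : s => (Finsupp.single (x : Place K F) (1 : ℤ)))

theorem fix_G {𝒢 : Glob K F} {E : Emb K F} (hE : 𝒢.Good E) (q : Fin (E.r + 1) → ℚ) :
    𝒢.Fix (E.G (fun i => (q i : K))) := by
  intro σ hσ
  unfold Emb.G
  rw [Finset.smul_sum]
  refine Finset.sum_congr rfl fun j _ => ?_
  rw [smul_smul', hE.fix j σ hσ, map_ratCast]

theorem fixD_dv {𝒢 : Glob K F} {E : Emb K F} (hE : 𝒢.Good E) (q : Fin (E.r + 1) → ℚ) :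
    𝒢.FixD (E.dv (fun i => (q i : K))) := by
  unfold Emb.dv
  refine GD.FixD.add (GD.Fix.div (fix_G hE q)) ?_
  rw [hE.inf]
  exact fixD_inf 𝒢 _

theorem slat_ap {ι : Type*} (A : AVFam K ι) (E : Emb K F) {d : ℕ} {P : Fin d → Place K F}
    (h : ∃ I, mnr (Xm E P) I ≠ 0) : AP (fun v => slat E A v P) := by
  refine ap_nrm A ?_
  intro h1
  obtain ⟨I, hI⟩ := h
  apply hI
  rw [mnr_Xm]
  exact congrFun h1 I

/-- **[B]** -/
theorem mulB (𝒢 : Glob K F) : MulB 𝒢 := by
  classical
  intro E' E E'' hE' hE hE'' hm d hd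
  obtain ⟨C, hC, hT⟩ := exists_T E' E E'' (hE'.inf.trans hE.inf.symm)
    (hE''.inf.trans hE.inf.symm) hm 𝒢.A
  refine ⟨LG (𝒢.A.cst (Fintype.card (Fin (E'.r + 1 - d) → Fin (E'.r + 1)))) +
    (E'.r + 1 - d : ℕ) * LG C, ?_⟩
  intro s hs hinf hcard q Z hq hZinf hdisj
  subst hcard
  set r := E'.r + 1 - s.card with hr
  set P' : Fin s.card → Place K F := fun j => (s.equivFin.symm j : Place K F) with hP'def
  have hP' : Function.Injective P' := enum_injective s
  have hc' : E'.c + s.card ≤ E'.m := by rw [hE'.c]; exact hd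
  have hell0 := E'.rr.eq (Finsupp.single E'.inf (E'.m : ℤ) - dvf P') (by
    rw [map_sub, degree_single_one, degree_dvf]; omega)
  rw [map_sub, degree_single_one, degree_dvf] at hell0
  have hr' := ell_inf E'
  have hdr : s.card + r = E'.r + 1 := by omega
  have hell : ell (Finsupp.single E'.inf (E'.m : ℤ) - dvf P') = r := by omega
  have hDfix : 𝒢.FixD (Finsupp.single E'.inf (E'.m : ℤ) - dvf P') := by
    refine GD.FixD.sub ?_ (fixD_dvf 𝒢 hP' (enum_stable hs))
    rw [hE'.inf]
    exact fixD_inf 𝒢 _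
  obtain ⟨u, hu, humem, hufix⟩ : ∃ u : Fin r → F, LinearIndependent K u ∧
      (∀ k, u k ∈ riemannRochSpace (Finsupp.single E'.inf (E'.m : ℤ) - dvf P')) ∧
      ∀ k, 𝒢.Fix (u k) := hell ▸ exists_fixed_family 𝒢.toGD hDfix
  -- coordinates
  have hb : ∀ k, ∃ b : Fin (E'.r + 1) → K, E'.G b = u k ∧ evl E' P' b = 0 := by
    intro k
    have h1 := humem k
    rw [← map_ker E' hP'] at h1
    obtain ⟨b, hb, hbu⟩ := h1
    exact ⟨b, hbu, hb⟩
  choose b hbu hb0 using hb
  set B' : Matrix (Fin (E'.r + 1)) (Fin r) K := Matrix.of fun i k => b k i with hB'def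
  have hB'li : LinearIndependent K B'.col := by
    have : LinearIndependent K b := LinearIndependent.of_comp (Glin E') (by
      have : (Glin E') ∘ b = u := funext fun k => hbu k
      rw [this]
      exact hu)
    exact this
  obtain ⟨c', hc'0, hLGc', hdual'⟩ := dual_data 𝒢 hE' hP' (enum_stable hs) hc' hdr B' hB'li
    (fun k => by
      have : E'.G (fun i => B' i k) = u k := hbu k
      rw [this]
      exact hufix k) (fun k j => congrFun (hb0 k) j)
  -- the section
  have hq0 : (fun i => (q i : K)) ≠ 0 := by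
    intro h0
    rw [h0] at hq
    have h1 := DFunLike.congr_fun hq E.inf
    rw [dvs_apply, if_neg (by rw [hE.inf]; exact hZinf), Emb.dv, Finsupp.add_apply,
      divisorOf_apply, Finsupp.single_eq_same] at h1
    have h2 : E.G 0 = 0 := by simp [Emb.G]
    rw [h2, Place.ord_zero] at h1
    have := E.pos
    omega
  set G := E.G (fun i => (q i : K)) with hG
  have hG0 : G ≠ 0 := EB.G_ne_zero E hq0
  obtain ⟨T, hT1, hT2⟩ := hT (fun i => (q i : K))
  have hG'' : ∀ k, E''.G (fun i => (T * B') i k) = G * u k := by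
    intro k
    have h1 : (fun i => (T * B') i k) = ∑ j, b k j • (fun i => T i j) := by
      funext i
      rw [Matrix.mul_apply, Finset.sum_apply]
      refine Finset.sum_congr rfl fun j _ => ?_
      rw [Pi.smul_apply, smul_eq_mul, mul_comm]
      rfl
    rw [← Glin_apply, h1, map_sum]
    simp only [map_smul, Glin_apply, hT1]
    rw [← hbu k]
    conv_rhs => rw [Emb.G]
    rw [Finset.mul_sum]
    refine Finset.sum_congr rfl fun j _ => ?_
    rw [mul_smul_comm]
  have hB''li : LinearIndependent K (T * B').col := by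
    have h1 : LinearIndependent K (fun k => G * u k) := by
      have h2 := hu.map' (LinearMap.mulLeft K G) (by
        rw [LinearMap.ker_eq_bot]
        intro x y hxy
        exact mul_left_cancel₀ hG0 hxy)
      exact h2
    refine LinearIndependent.of_comp (Glin E'') ?_
    have : (Glin E'') ∘ (T * B').col = fun k => G * u k := funext fun k => hG'' k
    rw [this]
    exact h1
  -- the union
  have hZst : 𝒢.Stable Z := stable_of_fixD (by rw [← hq]; exact fixD_dv hE q)
  have hst'' : 𝒢.Stable (Z ∪ s) := by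
    intro σ hσ P hP
    rcases Finset.mem_union.1 hP with h | h
    · exact Finset.mem_union_left _ (hZst σ hσ P h)
    · exact Finset.mem_union_right _ (hs σ hσ P h)
  have hZcard : Z.card = E.m := by
    have h1 := EB.degree_dv E (fun i => (q i : K))
    rw [hq, degree_dvs] at h1
    exact_mod_cast h1
  have hcard'' : (Z ∪ s).card = E.m + s.card := by
    rw [Finset.card_union_of_disjoint hdisj, hZcard]
  set P'' : Fin (Z ∪ s).card → Place K F := fun j => ((Z ∪ s).equivFin.symm j : Place K F)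
    with hP''def
  have hP'' : Function.Injective P'' := enum_injective _
  have hc'' : E''.c + (Z ∪ s).card ≤ E''.m := by
    rw [hcard'', hE''.c, hm]
    rw [hE'.c] at hc'
    push_cast
    omega
  have hdr'' : (Z ∪ s).card + r = E''.r + 1 := by
    have h1 := ell_inf E''
    rw [hE''.g, hm] at h1
    rw [hE'.g] at hr'
    push_cast at h1
    rw [hcard'']
    omega
  have hdot'' : ∀ k j, E''.dot (fun i => (T * B') i k) (P'' j) = 0 := by
    intro k j
    apply EB.dot_of_pos
    rw [Emb.dv, hG'' k, Finsupp.add_apply, divisorOf_apply, (P'' j).ord_mul hG0 (hu.ne_zero k)]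
    have h1 := (mem_iff_of_ne (hu.ne_zero k)).1 (humem k) (P'' j)
    have h2 := DFunLike.congr_fun hq (P'' j)
    rw [Emb.dv, Finsupp.add_apply, divisorOf_apply, ← hG, dvs_apply, hE.inf] at h2
    rw [Finsupp.sub_apply, dvf_enum s, dvs_apply, hE'.inf] at h1
    have h3 : P'' j ∈ Z ∪ s := ((Z ∪ s).equivFin.symm j).2
    have h4 : (Finsupp.single E''.inf (E''.m : ℤ) : Divisor K F) (P'' j) =
        (Finsupp.single 𝒢.inf (E'.m : ℤ) : Divisor K F) (P'' j) +
        (Finsupp.single 𝒢.inf (E.m : ℤ) : Divisor K F) (P'' j) := by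
      rw [← Finsupp.add_apply, ← Finsupp.single_add, hE''.inf, hm]
      push_cast
      rfl
    rw [h4]
    rcases Finset.mem_union.1 h3 with h5 | h5
    · rw [if_pos h5] at h2
      have h6 : (0 : ℤ) ≤ if P'' j ∈ s then 1 else 0 := by split_ifs <;> norm_num
      omega
    · rw [if_pos h5] at h1
      have h6 : (0 : ℤ) ≤ if P'' j ∈ Z then 1 else 0 := by split_ifs <;> norm_num
      omega
  obtain ⟨c'', hc''0, hLGc'', hdual''⟩ := dual_data 𝒢 hE'' hP'' (enum_stable hst'') hc'' hdr''
    (T * B') hB''li (fun k => by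
      rw [hG'' k]
      intro σ hσ
      rw [smul_mul', fix_G hE q σ hσ, hufix k σ hσ]) hdot''
  -- the inequality
  have hsq : ∀ v, 0 ≤ sup 𝒢.A v (fun i => (q i : K)) := fun v => 𝒢.A.nrm_nonneg v _
  have key : ∀ v, 𝒢.A.nv v c'' * slat E'' 𝒢.A v P'' ≤
      𝒢.A.cst (Fintype.card (Fin r → Fin (E'.r + 1))) v *
        ((C v * sup 𝒢.A v (fun i => (q i : K))) ^ r * (𝒢.A.nv v c' * slat E' 𝒢.A v P')) := by
    intro v
    rw [← hdual'' v, ← hdual' v]
    exact nrm_mnr_mul 𝒢.A v T B' (mul_nonneg (hC.nonneg v) (hsq v)) (hT2 v)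
  have hAs : AP (fun v => sup 𝒢.A v (fun i => (q i : K))) := by
    have := ap_nrm 𝒢.A hq0
    exact this
  have hA' : AP (fun v => slat E' 𝒢.A v P') := slat_ap 𝒢.A E' (exists_mnr_X E' hP' hc')
  have hA'' : AP (fun v => slat E'' 𝒢.A v P'') := slat_ap 𝒢.A E'' (exists_mnr_X E'' hP'' hc'')
  have hAcst := ap_of_mc (𝒢.A.mc_cst (Fintype.card (Fin r → Fin (E'.r + 1))))
  have hAC := ap_of_mc hC
  have hAr : AP (fun v => (C v * sup 𝒢.A v (fun i => (q i : K))) ^ r) := (hAC.mul hAs).pow r
  have hAcs' : AP (fun v => 𝒢.A.nv v c' * slat E' 𝒢.A v P') := (ap_nv 𝒢.A hc'0).mul hA'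
  have h1 := LG_mono ((ap_nv 𝒢.A hc''0).mul hA'') (hAcst.mul (hAr.mul hAcs')) key
  rw [LG_mul (ap_nv 𝒢.A hc''0) hA'', hLGc'', LG_mul hAcst (hAr.mul hAcs'), LG_mul hAr hAcs',
    LG_pow, LG_mul hAC hAs, LG_mul (ap_nv 𝒢.A hc'0) hA', hLGc'] at h1
  have h2 : LG (fun v => slat E'' 𝒢.A v P'') = Cov E'' 𝒢.A (Z ∪ s) := rfl
  have h3 : LG (fun v => slat E' 𝒢.A v P') = Cov E' 𝒢.A s := rfl
  rw [h2, h3] at h1
  have h4 : ((E'.r + 1 : ℕ) - s.card : ℝ) = r := by
    have : (s.card : ℝ) + r = ((E'.r + 1 : ℕ) : ℝ) := by exact_mod_cast hdr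
    linarith
  rw [h4]
  have h5 : LG (𝒢.A.cst (Fintype.card (Fin r → Fin (E'.r + 1)))) =
    LG (fun v => 𝒢.A.cst (Fintype.card (Fin r → Fin (E'.r + 1))) v) := rfl
  rw [h5]
  linarith

end Fermat.Agent.MWS
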