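import Fermat.Agent.MWS.EmbB

/-!
# Upper bounds of Slater determinants from the local upper bound
-/

set_option autoImplicit false
set_option linter.unusedSectionVars false

noncomputable section

namespace Fermat.Agent.MWS

open AlgebraicCurve Fermat.Agent.Curves Fermat.Agent.PicFlat Fermat.Agent.MWH

variable {K F ι : Type*} [Field K] [IsAlgClosed K] [Field F] [Algebra K F] [IsFunctionField K F]

namespace EB

variable (E : Emb K F) (A : AVFam K ι)

/-- the coefficients of the expansion along row `0` -/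
def rowc {n : ℕ} (P : Fin (n + 1) → Place K F) (s : Fin (n + 1) → Fin (E.r + 1))
    (i : Fin (E.r + 1)) : K :=
  ∑ j : Fin (n + 1), if s j = i then
    (-1) ^ (j : ℕ) * Matrix.det (Matrix.of fun (a b : Fin n) =>
      E.x (P a.succ) (s (j.succAbove b))) else 0

theorem dot_rowc {n : ℕ} (P : Fin (n + 1) → Place K F) (s : Fin (n + 1) → Fin (E.r + 1))
    (Q : Place K F) :
    E.dot (rowc E P s) Q = Matrix.det (Matrix.of fun (i j : Fin (n + 1)) =>
      E.x ((Fin.cons Q (fun a => P a.succ) : Fin (n + 1) → Place K F) i) (s j)) := by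
  rw [Matrix.det_succ_row_zero, Emb.dot]
  have h1 : ∀ i, rowc E P s i * E.x Q i = ∑ j : Fin (n + 1), if s j = i then
      (-1) ^ (j : ℕ) * E.x Q (s j) * Matrix.det (Matrix.of fun (a b : Fin n) =>
      E.x (P a.succ) (s (j.succAbove b))) else 0 := by
    intro i
    rw [rowc, Finset.sum_mul]
    refine Finset.sum_congr rfl fun j _ => ?_
    split_ifs with h
    · rw [← h]; ring
    · rw [zero_mul]
  rw [Finset.sum_congr rfl fun i _ => h1 i, Finset.sum_comm]
  refine Finset.sum_congr rfl fun j _ => ?_
  rw [Finset.sum_ite_eq, if_pos (Finset.mem_univ _)]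
  simp only [Matrix.of_apply, Fin.cons_zero]
  congr 1

theorem dot_rowc_zero {n : ℕ} (P : Fin (n + 1) → Place K F) (s : Fin (n + 1) → Fin (E.r + 1)) :
    E.dot (rowc E P s) (P 0) =
      Matrix.det (Matrix.of fun (i j : Fin (n + 1)) => E.x (P i) (s j)) := by
  rw [dot_rowc]
  congr 1
  ext i j
  simp only [Matrix.of_apply]
  congr 2
  refine Fin.cases ?_ (fun a => ?_) i
  · rw [Fin.cons_zero]
  · rw [Fin.cons_succ]

theorem dot_rowc_succ {n : ℕ} (P : Fin (n + 1) → Place K F) (s : Fin (n + 1) → Fin (E.r + 1))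
    (k : Fin n) : E.dot (rowc E P s) (P k.succ) = 0 := by
  rw [dot_rowc]
  refine Matrix.det_zero_of_row_eq (i := 0) (j := k.succ) (Fin.succ_ne_zero k).symm ?_
  ext j
  simp only [Matrix.of_apply, Fin.cons_zero, Fin.cons_succ]

theorem nv_neg_one_pow (v : ι) (j : ℕ) : A.nv v ((-1) ^ j) = 1 := by
  rw [map_pow, AbsoluteValue.map_neg, map_one, one_pow]

/-- **LocUB implies the upper bound of Slater determinants** -/
theorem slater (h : LocUB E A) : Slater E A := by
  classical
  obtain ⟨C0, hC0, hub⟩ := h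
  intro n
  induction n with
  | zero => exact ⟨fun _ => 1, MC.one, fun v P s => by simp⟩
  | succ n ih =>
    obtain ⟨C, hC, hs⟩ := ih
    refine ⟨fun v => C0 v * (A.cst (n + 1) v * C v) * A.cst 2 v ^ E.m,
      (hC0.mul ((A.mc_cst _).mul hC)).mul ((A.mc_cst 2).pow _), fun v P s => ?_⟩
    have hnn : ∀ (P : Fin (n + 1) → Place K F), 0 ≤ (∏ i, E.nx A v (P i)) *
        ∏ i, ∏ j ∈ Finset.univ.filter (i < ·), E.dl A v (P i) (P j) := fun P =>
      mul_nonneg (Finset.prod_nonneg fun i _ => (nx_pos E A v _).le)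
        (Finset.prod_nonneg fun i _ => Finset.prod_nonneg fun j _ => dl_nonneg E A v _ _)
    have hCnn : 0 ≤ C0 v * (A.cst (n + 1) v * C v) * A.cst 2 v ^ E.m :=
      ((hC0.mul ((A.mc_cst (n + 1)).mul hC)).mul ((A.mc_cst 2).pow E.m)).nonneg v
    by_cases hinj : Function.Injective P
    swap
    · obtain ⟨i, j, hij, hne⟩ : ∃ i j, P i = P j ∧ i ≠ j := by
        unfold Function.Injective at hinj
        push Not at hinj
        exact hinj
      rw [Matrix.det_zero_of_row_eq hne, map_zero]
      · exact mul_nonneg hCnn (hnn P)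
      · ext b
        simp only [Matrix.of_apply]
        rw [hij]
    rw [← dot_rowc_zero]
    by_cases hc : rowc E P s = 0
    · rw [hc]
      have : E.dot 0 (P 0) = 0 := by simp [Emb.dot]
      rw [this, map_zero]
      exact mul_nonneg hCnn (hnn P)
    refine (hub v _ hc (P 0)).trans ?_
    -- split off the points `P k`, `k ≥ 1`
    have hD : (0 : Divisor K F) ≤ E.dv (rowc E P s) - ∑ k : Fin n, Finsupp.single (P k.succ) 1 := by
      rw [sub_nonneg]
      intro Q
      rw [Finsupp.finsetSum_apply]
      by_cases hQ : ∃ k : Fin n, P k.succ = Q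
      · obtain ⟨k, rfl⟩ := hQ
        rw [Finset.sum_eq_single k]
        · rw [Finsupp.single_eq_same]
          exact pos_of_dot E hc (dot_rowc_succ E P s k)
        · intro l _ hl
          rw [Finsupp.single_eq_of_ne]
          intro h
          exact hl (Fin.succ_injective n (hinj h)).symm
        · simp
      · rw [Finset.sum_eq_zero]
        · exact dv_nonneg E hc Q
        · intro k _
          rw [Finsupp.single_eq_of_ne]
          exact fun h => hQ ⟨k, h.symm⟩
    have hD' : (0 : Divisor K F) ≤ ∑ k : Fin n, Finsupp.single (P k.succ) 1 :=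
      Finset.sum_nonneg fun k _ => by rw [Finsupp.single_nonneg]; norm_num
    have h1 : E.dD A v (P 0) (E.dv (rowc E P s)) ≤
        (∏ k : Fin n, E.dl A v (P 0) (P k.succ)) * A.cst 2 v ^ E.m := by
      conv_lhs => rw [← add_sub_cancel (∑ k : Fin n, Finsupp.single (P k.succ) (1 : ℤ))
        (E.dv (rowc E P s))]
      rw [dD_add E A v _ hD' hD, dD_sum]
      refine mul_le_mul_of_nonneg_left ?_ (Finset.prod_nonneg fun _ _ => dl_nonneg E A v _ _)
      refine (dD_le E A v _ hD).trans ?_
      refine pow_le_pow_right₀ ((A.mc_cst 2).one_le v) ?_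
      rw [map_sub, degree_dv]
      have := pos_of_nonneg_degree _ hD'
      omega
    have h2 : sup A v (rowc E P s) ≤ A.cst (n + 1) v * (C v * ((∏ i : Fin n, E.nx A v (P i.succ)) *
        ∏ i : Fin n, ∏ j ∈ Finset.univ.filter (i < ·), E.dl A v (P i.succ) (P j.succ))) := by
      refine A.nrm_le fun i => ?_
      have hM : 0 ≤ (C v * ((∏ i : Fin n, E.nx A v (P i.succ)) *
          ∏ i : Fin n, ∏ j ∈ Finset.univ.filter (i < ·), E.dl A v (P i.succ) (P j.succ))) :=
        mul_nonneg (hC.nonneg v) (mul_nonneg (Finset.prod_nonneg fun i _ => (nx_pos E A v _).le)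
        (Finset.prod_nonneg fun i _ => Finset.prod_nonneg fun j _ => dl_nonneg E A v _ _))
      have := A.sum_le' (fun j : Fin (n + 1) => if s j = i then
        (-1) ^ (j : ℕ) * Matrix.det (Matrix.of fun (a b : Fin n) =>
          E.x (P a.succ) (s (j.succAbove b))) else 0) v hM ?_
      · rw [Fintype.card_fin] at this
        exact this
      · intro j
        split_ifs with h
        · rw [map_mul, nv_neg_one_pow, one_mul]
          exact hs v (fun a => P a.succ) fun b => s (j.succAbove b)
        · rw [map_zero]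
          exact hM
    have h3 : ∏ i : Fin (n + 1), ∏ j ∈ Finset.univ.filter (i < ·), E.dl A v (P i) (P j) =
        (∏ k : Fin n, E.dl A v (P 0) (P k.succ)) *
        ∏ i : Fin n, ∏ j ∈ Finset.univ.filter (i < ·), E.dl A v (P i.succ) (P j.succ) := by
      rw [Fin.prod_univ_succ]
      congr 1
      · rw [Finset.prod_filter, Fin.prod_univ_succ]
        simp
      · refine Finset.prod_congr rfl fun i _ => ?_
        rw [Finset.prod_filter, Fin.prod_univ_succ, Finset.prod_filter]
        simp
    rw [h3, Fin.prod_univ_succ (fun i => E.nx A v (P i))]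
    set X := ∏ i : Fin n, E.nx A v (P i.succ)
    set Y := ∏ i : Fin n, ∏ j ∈ Finset.univ.filter (i < ·), E.dl A v (P i.succ) (P j.succ)
    set Z := ∏ k : Fin n, E.dl A v (P 0) (P k.succ)
    have hX : 0 ≤ X := Finset.prod_nonneg fun i _ => (nx_pos E A v _).le
    have hY : 0 ≤ Y := Finset.prod_nonneg fun i _ => Finset.prod_nonneg fun j _ =>
      dl_nonneg E A v _ _
    have hZ : 0 ≤ Z := Finset.prod_nonneg fun _ _ => dl_nonneg E A v _ _
    calc C0 v * (sup A v (rowc E P s) * E.nx A v (P 0) * E.dD A v (P 0) (E.dv (rowc E P s)))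
        ≤ C0 v * ((A.cst (n + 1) v * (C v * (X * Y))) * E.nx A v (P 0) * (Z * A.cst 2 v ^ E.m)) := by
          refine mul_le_mul_of_nonneg_left ?_ (hC0.nonneg v)
          refine mul_le_mul (mul_le_mul_of_nonneg_right h2 (nx_pos E A v _).le) h1
            (dD_nonneg E A v _ _) ?_
          refine mul_nonneg (mul_nonneg (cst_pos A _ v).le (mul_nonneg (hC.nonneg v)
            (mul_nonneg hX hY))) (nx_pos E A v _).le
      _ = _ := by ring

end EB

end Fermat.Agent.MWS
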