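import Fermat.Agent.MWS.GlobQ

/-!
# Sections vanishing at a stable set: dimensions and Siegel's lemma
-/

set_option autoImplicit false
set_option linter.unusedSectionVars false
set_option linter.style.haveILetI false

noncomputable section

namespace Fermat.Agent.MWS

open AlgebraicCurve Fermat.Agent.Curves Fermat.Agent.PicFlat Fermat.Agent.MWH Fermat.Agent.MWG
open SemilinearAut Matrix Fermat.Agent.GoodRed
open scoped Pointwise

variable {K F : Type*} [Field K] [IsAlgClosed K] [Field F] [Algebra K F]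
  [IsFunctionField K F]

/-- the linear map `c ↦ ∑ c_i f_i` -/
def Glin (E : Emb K F) : (Fin (E.r + 1) → K) →ₗ[K] F where
  toFun := E.G
  map_add' c c' := by simp [Emb.G, add_smul, Finset.sum_add_distrib]
  map_smul' t c := by simp [Emb.G, Finset.smul_sum, smul_smul]

theorem Glin_apply (E : Emb K F) (c : Fin (E.r + 1) → K) : Glin E c = E.G c := rfl

theorem Glin_injective (E : Emb K F) : Function.Injective (Glin E) := by
  rw [← LinearMap.ker_eq_bot, LinearMap.ker_eq_bot']
  intro c hc
  exact EB.G_eq_zero E hc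

theorem range_Glin (E : Emb K F) :
    LinearMap.range (Glin E) = riemannRochSpace (Finsupp.single E.inf (E.m : ℤ)) := by
  rw [← E.span]
  apply le_antisymm
  · rintro _ ⟨c, rfl⟩
    show E.G c ∈ Submodule.span K (Set.range E.f)
    unfold Emb.G
    exact Submodule.sum_mem _ fun i _ => Submodule.smul_mem _ _
      (Submodule.subset_span (Set.mem_range_self i))
  · rw [Submodule.span_le]
    rintro _ ⟨i, rfl⟩
    refine ⟨Pi.single i 1, ?_⟩
    rw [Glin_apply, Emb.G, Finset.sum_eq_single i]
    · simp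
    · intro j _ hj
      simp [Pi.single_eq_of_ne hj]
    · simp

/-- evaluation at points -/
def evl (E : Emb K F) {d : ℕ} (P : Fin d → Place K F) :
    (Fin (E.r + 1) → K) →ₗ[K] (Fin d → K) := (Xm E P).vecMulLinear

theorem evl_apply (E : Emb K F) {d : ℕ} (P : Fin d → Place K F) (c : Fin (E.r + 1) → K)
    (j : Fin d) : evl E P c j = E.dot c (P j) := rfl

/-- the divisor of a family of points -/
def dvf {d : ℕ} (P : Fin d → Place K F) : Divisor K F := ∑ j, Finsupp.single (P j) 1

theorem degree_dvf {d : ℕ} (P : Fin d → Place K F) : Divisor.degree (dvf P) = d := by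
  rw [dvf, map_sum]
  simp only [degree_single_one]
  simp

theorem dvf_apply {d : ℕ} {P : Fin d → Place K F} (hP : Function.Injective P) (Q : Place K F) :
    (∃ j, P j = Q ∧ dvf P Q = 1) ∨ ((∀ j, P j ≠ Q) ∧ dvf P Q = 0) := by
  classical
  rw [dvf, Finsupp.finsetSum_apply]
  by_cases hQ : ∃ j, P j = Q
  · obtain ⟨j, rfl⟩ := hQ
    left
    refine ⟨j, rfl, ?_⟩
    rw [Finset.sum_eq_single j]
    · rw [Finsupp.single_eq_same]
    · intro l _ hl
      rw [Finsupp.single_eq_of_ne]
      intro h
      exact hl (hP h).symm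
    · simp
  · right
    refine ⟨fun j hj => hQ ⟨j, hj⟩, ?_⟩
    refine Finset.sum_eq_zero fun l _ => ?_
    rw [Finsupp.single_eq_of_ne]
    exact fun h => hQ ⟨l, h.symm⟩

theorem mem_ker_iff (E : Emb K F) {d : ℕ} {P : Fin d → Place K F} (hP : Function.Injective P)
    (c : Fin (E.r + 1) → K) : evl E P c = 0 ↔
      E.G c ∈ riemannRochSpace (Finsupp.single E.inf (E.m : ℤ) - dvf P) := by
  rcases eq_or_ne c 0 with rfl | hc
  · rw [map_zero, ← Glin_apply, map_zero]
    exact ⟨fun _ => Submodule.zero_mem _, fun _ => rfl⟩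
  rw [mem_iff_div (EB.G_ne_zero E hc)]
  constructor
  · intro h Q
    rw [← add_sub_assoc, Finsupp.sub_apply]
    rcases dvf_apply hP Q with ⟨j, hj, h1⟩ | ⟨-, h1⟩
    · rw [h1]
      have := EB.pos_of_dot E hc (P := P j) (congrFun h j)
      rw [Emb.dv, hj] at this
      rw [Finsupp.zero_apply]
      omega
    · rw [h1]
      have := EB.dv_nonneg E hc Q
      rw [Emb.dv] at this
      rw [Finsupp.zero_apply] at this ⊢
      omega
  · intro h
    funext j
    rw [evl_apply, Pi.zero_apply]
    apply EB.dot_of_pos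
    have h1 := h (P j)
    rw [← add_sub_assoc, Finsupp.sub_apply, Finsupp.zero_apply] at h1
    rcases dvf_apply hP (P j) with ⟨_, _, h2⟩ | ⟨h2, -⟩
    · rw [Emb.dv]
      omega
    · exact absurd rfl (h2 j)

theorem map_ker (E : Emb K F) {d : ℕ} {P : Fin d → Place K F} (hP : Function.Injective P) :
    (LinearMap.ker (evl E P)).map (Glin E) =
      riemannRochSpace (Finsupp.single E.inf (E.m : ℤ) - dvf P) := by
  apply le_antisymm
  · rintro _ ⟨c, hc, rfl⟩
    exact (mem_ker_iff E hP c).1 hc
  · intro f hf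
    have h1 : f ∈ riemannRochSpace (Finsupp.single E.inf (E.m : ℤ)) := by
      refine riemannRochSpace_mono ?_ hf
      intro Q
      rw [Finsupp.sub_apply]
      rcases dvf_apply hP Q with ⟨j, hj, h1⟩ | ⟨-, h1⟩ <;> omega
    rw [← range_Glin] at h1
    obtain ⟨c, rfl⟩ := h1
    exact ⟨c, (mem_ker_iff E hP c).2 hf, rfl⟩

theorem ell_inf (E : Emb K F) : (E.r : ℤ) + 1 = E.m + 1 - E.g := by
  have h1 : ell (Finsupp.single E.inf (E.m : ℤ)) = E.r + 1 := by
    unfold ell
    rw [← range_Glin, LinearMap.finrank_range_of_inj (Glin_injective E), Module.finrank_fin_fun]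
  have h2 := E.rr.eq (Finsupp.single E.inf (E.m : ℤ)) (by
    rw [degree_single_one]; have := E.large; omega)
  rw [degree_single_one, h1] at h2
  push_cast at h2
  exact h2

theorem finrank_ker (E : Emb K F) {d : ℕ} {P : Fin d → Place K F} (hP : Function.Injective P)
    (hd : E.c + d ≤ E.m) :
    (Module.finrank K (LinearMap.ker (evl E P)) : ℤ) + d = E.r + 1 := by
  have h1 := LinearEquiv.finrank_eq (Submodule.equivMapOfInjective (Glin E) (Glin_injective E)
    (LinearMap.ker (evl E P)))
  rw [map_ker E hP] at h1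
  have h2 := E.rr.eq (Finsupp.single E.inf (E.m : ℤ) - dvf P) (by
    rw [map_sub, degree_single_one, degree_dvf]; omega)
  rw [map_sub, degree_single_one, degree_dvf] at h2
  unfold ell at h2
  rw [h1, h2, ell_inf]
  ring

theorem exists_mnr_X (E : Emb K F) {d : ℕ} {P : Fin d → Place K F} (hP : Function.Injective P)
    (hd : E.c + d ≤ E.m) : ∃ I, mnr (Xm E P) I ≠ 0 := by
  apply exists_mnr_of_span
  have h1 : Submodule.span K (Set.range (Xm E P).row) = LinearMap.range (evl E P) := by
    rw [evl, range_vecMulLinear]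
  rw [h1]
  apply Submodule.eq_top_of_finrank_eq
  have h2 := LinearMap.finrank_range_add_finrank_ker (evl E P)
  have h3 := finrank_ker E hP hd
  rw [Module.finrank_fin_fun] at h2 ⊢
  omega

/-- log of the size of an integral vector -/
theorem LG_int [CharZero K] (𝒢 : Glob K F) {n : ℕ} (c : Fin (n + 1) → ℤ) (hc : c ≠ 0) {M : ℝ}
    (hM : ∀ i, |(c i : ℝ)| ≤ M) :
    LG (fun v => sup 𝒢.A v (fun i => (((c i : ℚ) : ℚ) : K))) ≤ Real.log M := by
  have hne : (fun i => (((c i : ℚ) : ℚ) : K)) ≠ 0 := by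
    intro h
    apply hc
    funext i
    have h1 := congrFun h i
    simp only [Rat.cast_intCast, Pi.zero_apply, Int.cast_eq_zero] at h1
    exact h1
  have hap : AP (fun v => sup 𝒢.A v (fun i => (((c i : ℚ) : ℚ) : K))) := by
    have := ap_nrm 𝒢.A hne
    exact this
  have h1 := hap.log_fin
  unfold LG
  rw [finsum_option h1]
  have h2 : ∑ᶠ p : Nat.Primes, Real.log (sup 𝒢.A (some p) (fun i => (((c i : ℚ) : ℚ) : K))) ≤ 0 := by
    have h5 : 0 ≤ ∑ᶠ p : Nat.Primes,
        -Real.log (sup 𝒢.A (some p) (fun i => (((c i : ℚ) : ℚ) : K))) := ?_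
    · rw [finsum_neg_distrib] at h5
      linarith
    refine finsum_nonneg fun p => ?_
    rw [neg_nonneg]
    refine Real.log_nonpos ((hap.pos _).le) ?_
    refine ciSup_le fun i => ?_
    rw [𝒢.nv_p]
    haveI : Fact (p : ℕ).Prime := ⟨p.2⟩
    have := padicNorm.of_int (p := p) (c i)
    exact_mod_cast this
  have h3 : sup 𝒢.A none (fun i => (((c i : ℚ) : ℚ) : K)) ≤ M := by
    refine ciSup_le fun i => ?_
    rw [𝒢.nv_inf]
    have := hM i
    simpa using this
  have h4 := Real.log_le_log (hap.pos none) h3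
  linarith

/-- enumerations of stable sets -/
theorem enum_stable [CharZero K] {𝒢 : Glob K F} {s : Finset (Place K F)} (hs : 𝒢.Stable s) :
    ∀ σ ∈ 𝒢.G, ∀ j : Fin s.card, ∃ k : Fin s.card,
      σ • (s.equivFin.symm j : Place K F) = (s.equivFin.symm k : Place K F) := by
  intro σ hσ j
  have h1 := hs σ hσ _ (s.equivFin.symm j).2
  exact ⟨s.equivFin ⟨_, h1⟩, by simp⟩

theorem enum_injective (s : Finset (Place K F)) :
    Function.Injective (fun j : Fin s.card => (s.equivFin.symm j : Place K F)) :=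
  Subtype.val_injective.comp s.equivFin.symm.injective

/-- **[A]** -/
theorem siegelA [CharZero K] (𝒢 : Glob K F) : SiegelA 𝒢 := by
  intro E hE d hd hc
  refine ⟨Real.log ((E.r + 1 : ℕ) : ℝ), fun s hs hinf hcard => ?_⟩
  subst hcard
  set P : Fin s.card → Place K F := fun j => (s.equivFin.symm j : Place K F) with hPdef
  have hP : Function.Injective P := enum_injective s
  have hc' : E.c + s.card ≤ E.m := by rw [hE.c]; exact hc
  obtain ⟨c, hc0, hdot, hb⟩ := exists_section (toQAV 𝒢) (Xm E P) hd (exists_mnr_X E hP hc')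
    (fun I I' => by
      obtain ⟨q, hq⟩ := mnr_rat hE P hP (enum_stable hs) I I'
      exact ⟨q, by rw [hq, eq_ratCast]⟩)
  refine ⟨fun i => (c i : ℚ), ?_, ?_, ?_⟩
  · intro h
    apply hc0
    funext i
    have := congrFun h i
    simpa using this
  · intro Q hQ
    have h1 := hdot (s.equivFin ⟨Q, hQ⟩)
    have h2 : P (s.equivFin ⟨Q, hQ⟩) = Q := by simp [P]
    unfold Emb.dot
    rw [← h1]
    refine Finset.sum_congr rfl fun i _ => ?_
    show (((c i : ℚ) : ℚ) : K) * E.x Q i = (c i : K) * E.x (P (s.equivFin ⟨Q, hQ⟩)) i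
    rw [h2, Rat.cast_intCast]
  · have h1 := LG_int 𝒢 c hc0 hb
    refine h1.trans (le_of_eq ?_)
    rw [Real.log_mul (by positivity) (Real.exp_pos _).ne', Real.log_exp, add_comm]
    congr 1
    have h2 : Cov E 𝒢.A s = (toQAV 𝒢).ht (mnr (Xm E P)) := by
      unfold Cov LG QAV.ht
      refine finsum_congr fun v => ?_
      exact congrArg Real.log (slat_eq E 𝒢.A v P)
    rw [h2]
    congr 1
    rw [Nat.cast_sub hd.le]

end Fermat.Agent.MWS
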