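import Fermat.Agent.MWS.CovA

/-!
# Covolumes and multiplication by a section
-/

set_option autoImplicit false
set_option linter.unusedSectionVars false
set_option linter.style.haveILetI false

noncomputable section

namespace Fermat.Agent.MWS

open AlgebraicCurve Fermat.Agent.Curves Fermat.Agent.PicFlat Fermat.Agent.MWH Fermat.Agent.MWG
open SemilinearAut Matrix Fermat.Agent.GoodRed
open scoped Pointwise

variable {K F : Type*} [Field K] [IsAlgClosed K] [CharZero K] [Field F] [Algebra K F]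
  [IsFunctionField K F]

/-- a basis of fixed sections -/
theorem exists_fixed_family (𝒢 : GD K F) {D : Divisor K F} (hD : 𝒢.FixD D) :
    ∃ u : Fin (ell D) → F, LinearIndependent K u ∧ (∀ k, u k ∈ riemannRochSpace D) ∧
      ∀ k, 𝒢.Fix (u k) := by
  classical
  set V := riemannRochSpace D with hV
  set S : Set F := {u : F | u ∈ V ∧ 𝒢.Fix u} with hS
  have h1 : V ≤ Submodule.span K S := span_fixed 𝒢 V (fun σ hσ v hv => by
      have := smul_mem_RR (σ := σ) D hv
      rwa [hD σ hσ] at this)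
  have h2 : Submodule.span K S = V := le_antisymm (Submodule.span_le.2 fun u hu => hu.1) h1
  obtain ⟨b, hbS, hspan, hli⟩ := exists_linearIndependent K S
  rw [h2] at hspan
  let w : b → V := fun x => ⟨x.1, (hbS x.2).1⟩
  have hw : LinearIndependent K w := LinearIndependent.of_comp V.subtype hli
  haveI : Finite b := hw.finite
  haveI : Fintype b := Fintype.ofFinite b
  have hcard : Fintype.card b = ell D := by
    have h3 := finrank_span_set_eq_card hli
    rw [hspan] at h3
    rw [Set.toFinset_card] at h3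
    rw [← h3]
    rfl
  let e : Fin (ell D) ≃ b := (Fintype.equivFinOfCardEq hcard).symm
  exact ⟨fun k => (e k : F), hli.comp e e.injective, fun k => (hbS (e k).2).1,
    fun k => (hbS (e k).2).2⟩

theorem fixD_inf (𝒢 : Glob K F) (m : ℤ) : 𝒢.FixD (Finsupp.single 𝒢.inf m) :=
  GD.FixD.single 𝒢.fixinf m

theorem fixD_dvf (𝒢 : Glob K F) {d : ℕ} {P : Fin d → Place K F} (hP : Function.Injective P)
    (hst : ∀ σ ∈ 𝒢.G, ∀ j, ∃ k, σ • P j = P k) : 𝒢.FixD (dvf P) := by
  classical
  intro σ hσ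
  choose π hπ using hst σ hσ
  have hinj : Function.Injective π := by
    intro a b hab
    apply hP
    have h1 : σ • P a = σ • P b := by rw [hπ, hπ, hab]
    exact MulAction.injective σ h1
  let π' : Equiv.Perm (Fin d) := Equiv.ofBijective π (Finite.injective_iff_bijective.1 hinj)
  rw [dvf, Finset.smul_sum]
  simp only [SemilinearAut.smul_single, hπ]
  exact Equiv.sum_comp π' (fun j => Finsupp.single (P j) (1 : ℤ))

/-- minors of a rational matrix -/
theorem mnr_ratl {n r : ℕ} {B : Matrix (Fin n) (Fin r) K} (h : ∀ i k, ∃ q : ℚ, (q : K) = B i k)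
    (J : Fin r → Fin n) : ∃ q : ℚ, (q : K) = mnr B J := by
  choose Q hQ using h
  refine ⟨(Matrix.of fun i k => Q (J i) k).det, ?_⟩
  unfold mnr
  have : B.submatrix J id = (Rat.castHom K).mapMatrix (Matrix.of fun i k => Q (J i) k) := by
    ext i k
    rw [RingHom.mapMatrix_apply, Matrix.map_apply, Matrix.submatrix_apply, ← hQ]
    rfl
  rw [this, ← RingHom.map_det]
  rfl

/-- rational sections and the determinants of a stable set: the local sizes of the complementary
minors have the same degree -/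
theorem dual_data (𝒢 : Glob K F) {E : Emb K F} (hE : 𝒢.Good E) {d r : ℕ}
    {P : Fin d → Place K F} (hP : Function.Injective P)
    (hst : ∀ σ ∈ 𝒢.G, ∀ j, ∃ k, σ • P j = P k) (hd : E.c + d ≤ E.m) (hr : d + r = E.r + 1)
    (B : Matrix (Fin (E.r + 1)) (Fin r) K) (hB : LinearIndependent K B.col)
    (hfix : ∀ k, 𝒢.Fix (E.G (fun i => B i k))) (hdot : ∀ k j, E.dot (fun i => B i k) (P j) = 0) :
    ∃ c : K, c ≠ 0 ∧ LG (fun v => 𝒢.A.nv v c) = 0 ∧
      ∀ v, 𝒢.A.nrm v (mnr B) = 𝒢.A.nv v c * slat E 𝒢.A v P := by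
  obtain ⟨c, hc, ⟨I, J, hI, hJ, hIJ⟩, hv⟩ := sup_dual (Xm E P) B hr (exists_mnr_X E hP hd)
    (exists_mnr_of_li B hB) (fun k j => hdot k j)
  refine ⟨c, hc, ?_, fun v => ?_⟩
  · obtain ⟨q, hq⟩ := mnr_rat hE P hP hst I I
    obtain ⟨q', hq'⟩ := mnr_ratl (fun i k => coords_rat hE (hfix k) i) J
    refine LG_sqrt 𝒢 hc (q := q' ^ 2 / q) ?_
    push_cast
    rw [hq', ← hq, eq_div_iff (mul_ne_zero hI hI)]
    rcases hIJ with h | h
    · rw [h]; ring
    · rw [h]; ring
  · rw [slat_eq]
    exact hv (𝒢.A.nv v)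

/-- multiplication by a section in coordinates -/
theorem exists_T (E' E E'' : Emb K F) (hinf : E'.inf = E.inf) (hinf' : E''.inf = E.inf)
    (hm : E''.m = E'.m + E.m) {ι : Type*} (A : AVFam K ι) :
    ∃ C : ι → ℝ, MC C ∧ ∀ c : Fin (E.r + 1) → K,
      ∃ T : Matrix (Fin (E''.r + 1)) (Fin (E'.r + 1)) K,
        (∀ j, E''.G (fun i => T i j) = E.G c * E'.f j) ∧
        ∀ v i j, A.nv v (T i j) ≤ C v * sup A v c := by
  classical
  have h1 : ∀ (l : Fin (E.r + 1)) (j : Fin (E'.r + 1)),
      ∃ t : Fin (E''.r + 1) → K, E''.G t = E.f l * E'.f j := by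
    intro l j
    have h2 : E.f l * E'.f j ∈ riemannRochSpace (Finsupp.single E''.inf (E''.m : ℤ)) := by
      rw [mem_iff_of_ne (mul_ne_zero (E.li.ne_zero l) (E'.li.ne_zero j))]
      intro P
      rw [P.ord_mul (E.li.ne_zero l) (E'.li.ne_zero j)]
      have h3 := (mem_iff_of_ne (E.li.ne_zero l)).1 (EB.f_mem_rr E l) P
      have h4 := (mem_iff_of_ne (E'.li.ne_zero j)).1 (EB.f_mem_rr E' j) P
      by_cases hP : P = E.inf
      · subst hP
        rw [hinf', Finsupp.single_eq_same, hm]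
        rw [Finsupp.single_eq_same] at h3
        rw [hinf, Finsupp.single_eq_same] at h4
        push_cast
        omega
      · rw [hinf', Finsupp.single_eq_of_ne hP]
        rw [Finsupp.single_eq_of_ne hP] at h3
        rw [hinf, Finsupp.single_eq_of_ne hP] at h4
        omega
    rw [← range_Glin] at h2
    obtain ⟨t, ht⟩ := h2
    exact ⟨t, ht⟩
  choose T0 hT0 using h1
  obtain ⟨C, hC, hb⟩ := A.exists_bd Finset.univ
    (fun x : Fin (E.r + 1) × Fin (E'.r + 1) × Fin (E''.r + 1) => T0 x.1 x.2.1 x.2.2)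
  refine ⟨fun v => A.cst (E.r + 1) v * C v, (A.mc_cst _).mul hC, fun c =>
    ⟨Matrix.of fun i j => ∑ l, c l * T0 l j i, fun j => ?_, fun v i j => ?_⟩⟩
  · have h2 : (fun i => (Matrix.of fun i j => ∑ l, c l * T0 l j i) i j) = ∑ l, c l • T0 l j := by
      funext i
      rw [Finset.sum_apply]
      rfl
    rw [← Glin_apply, h2, map_sum]
    simp only [map_smul]
    unfold Emb.G
    rw [Finset.sum_mul]
    refine Finset.sum_congr rfl fun l _ => ?_
    rw [Glin_apply, hT0, smul_mul_assoc]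
  · rw [Matrix.of_apply]
    have hM : 0 ≤ C v * sup A v c := mul_nonneg (hC.nonneg v) (A.nrm_nonneg v c)
    have := A.sum_le' (fun l => c l * T0 l j i) v hM (fun l => by
      rw [map_mul, mul_comm (C v)]
      exact mul_le_mul (A.le_nrm v c l) (hb v (l, j, i) (Finset.mem_univ _)) ((A.nv v).nonneg _)
        (A.nrm_nonneg v c))
    rw [Fintype.card_fin] at this
    rw [mul_assoc]
    exact this

/-- minors of a product -/
theorem nrm_mnr_mul {ι : Type*} (A : AVFam K ι) {n n' r : ℕ} (v : ι)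
    (T : Matrix (Fin n') (Fin n) K) (B : Matrix (Fin n) (Fin r) K) {C : ℝ} (hC0 : 0 ≤ C)
    (hC : ∀ i j, A.nv v (T i j) ≤ C) [Nonempty (Fin r → Fin n)] [Nonempty (Fin r → Fin n')] :
    A.nrm v (mnr (T * B)) ≤ A.cst (Fintype.card (Fin r → Fin n)) v * (C ^ r * A.nrm v (mnr B)) := by
  refine A.nrm_le fun J => ?_
  rw [mnr_mul]
  refine A.sum_le' _ v (mul_nonneg (pow_nonneg hC0 _) (A.nrm_nonneg v _)) fun f => ?_
  rw [map_mul, map_prod]
  refine mul_le_mul ?_ (A.le_nrm v _ f) ((A.nv v).nonneg _) (pow_nonneg hC0 _)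
  calc ∏ a, A.nv v (T (J a) (f a)) ≤ ∏ _a : Fin r, C :=
        Finset.prod_le_prod (fun _ _ => (A.nv v).nonneg _) fun a _ => hC _ _
    _ = C ^ r := by simp

end Fermat.Agent.MWS
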