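import Fermat.Agent.MWS.Section

/-!
# Complementary minors, minors of a product
-/

set_option autoImplicit false

noncomputable section

namespace Fermat.Agent.MWS

open Real Matrix

section dual

variable {K : Type*} [Field K] {n d r : ℕ}

theorem mnr_injective' {X : Matrix (Fin n) (Fin d) K} {I : Fin d → Fin n}
    (h : mnr X I ≠ 0) : Function.Injective I := by
  intro i j hij
  by_contra hne
  apply h
  refine Matrix.det_zero_of_row_eq hne ?_
  funext k
  rw [Matrix.submatrix_apply, Matrix.submatrix_apply, hij]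

/-- a complement of an injective family of indices, on the other side -/
theorem exists_split {n d r : ℕ} (hn : d + r = n) (I : Fin d → Fin n) (hI : Function.Injective I) :
    ∃ e : Fin d ⊕ Fin r ≃ Fin n, ∀ i, e (Sum.inl i) = I i := by
  obtain ⟨r', e, he, h⟩ := exists_compl I hI
  obtain rfl : r' = r := by omega
  exact ⟨e, he⟩

theorem exists_split' {n d r : ℕ} (hn : d + r = n) (J : Fin r → Fin n) (hJ : Function.Injective J) :
    ∃ e : Fin d ⊕ Fin r ≃ Fin n, ∀ i, e (Sum.inr i) = J i := by
  obtain ⟨e, he⟩ := exists_split (d := r) (r := d) (by omega) J hJ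
  exact ⟨(Equiv.sumComm _ _).trans e, fun i => he i⟩

/-- the unit columns at the complementary indices -/
def unitC (e : Fin d ⊕ Fin r ≃ Fin n) : Matrix (Fin n) (Fin r) K :=
  Matrix.of fun i k => if i = e (Sum.inr k) then 1 else 0

theorem det_cols (X : Matrix (Fin n) (Fin d) K) (e : Fin d ⊕ Fin r ≃ Fin n) :
    ((Matrix.fromCols X (unitC e)).submatrix e id).det = mnr X (fun i => e (Sum.inl i)) := by
  have h : (Matrix.fromCols X (unitC e)).submatrix e id =
      Matrix.fromBlocks (X.submatrix (fun i => e (Sum.inl i)) id) 0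
        (X.submatrix (fun i => e (Sum.inr i)) id) (1 : Matrix (Fin r) (Fin r) K) := by
    ext i j
    rcases i with i | i <;> rcases j with j | j
    · rfl
    · show (if e (Sum.inl i) = e (Sum.inr j) then (1 : K) else 0) = 0
      rw [if_neg]
      intro h
      exact Sum.inl_ne_inr (e.injective h)
    · rfl
    · show (if e (Sum.inr i) = e (Sum.inr j) then (1 : K) else 0) = (1 : Matrix _ _ K) i j
      rw [Matrix.one_apply]
      by_cases h : i = j
      · rw [if_pos h, if_pos (by rw [h])]
      · rw [if_neg h, if_neg]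
        intro h'
        exact h (Sum.inr_injective (e.injective h'))
  rw [h, Matrix.det_fromBlocks_zero₁₂, Matrix.det_one, mul_one]
  rfl

/-- **complementary minors** -/
theorem exists_dual (X : Matrix (Fin n) (Fin d) K) (B : Matrix (Fin n) (Fin r) K) (hn : d + r = n)
    (hX : ∃ I, mnr X I ≠ 0) (hB : ∃ J, mnr B J ≠ 0)
    (h : ∀ k j, ∑ i, B i k * X i j = 0) :
    ∃ c : K, c ≠ 0 ∧ ∀ e : Fin d ⊕ Fin r ≃ Fin n, ∃ s : ℤˣ,
      mnr B (fun i => e (Sum.inr i)) = c * ((s : ℤ) : K) * mnr X (fun i => e (Sum.inl i)) := by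
  classical
  obtain ⟨I₀, hI₀⟩ := hX
  obtain ⟨e₀, he₀⟩ := exists_split hn I₀ (mnr_injective' hI₀)
  let M₀ : Matrix (Fin d) (Fin d) K := X.submatrix I₀ id
  have hM₀ : IsUnit M₀.det := isUnit_iff_ne_zero.mpr hI₀
  let S : Matrix (Fin d) (Fin n) K := Matrix.of fun b i => if i = I₀ b then 1 else 0
  have hSX : S * X = M₀ := by
    ext b j
    rw [Matrix.mul_apply, Finset.sum_eq_single (I₀ b)]
    · show (if I₀ b = I₀ b then (1 : K) else 0) * X (I₀ b) j = _
      rw [if_pos rfl, one_mul]
      rfl
    · intro i _ hi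
      show (if i = I₀ b then (1 : K) else 0) * X i j = 0
      rw [if_neg hi, zero_mul]
    · intro h
      exact absurd (Finset.mem_univ _) h
  let F : Matrix (Fin d) (Fin n) K := M₀⁻¹ * S
  have hFX : F * X = 1 := by
    show M₀⁻¹ * S * X = 1
    rw [Matrix.mul_assoc, hSX, Matrix.nonsing_inv_mul _ hM₀]
  have hBX : Bᵀ * X = 0 := by
    ext k j
    rw [Matrix.mul_apply]
    exact h k j
  let R : Matrix (Fin d ⊕ Fin r) (Fin d ⊕ Fin r) K := (Matrix.fromRows F Bᵀ).submatrix id e₀
  have key : ∀ e : Fin d ⊕ Fin r ≃ Fin n, ∃ s : ℤˣ,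
      mnr B (fun i => e (Sum.inr i)) = R.det * ((s : ℤ) : K) * mnr X (fun i => e (Sum.inl i)) := by
    intro e
    have h1 : R * (Matrix.fromCols X (unitC e)).submatrix e₀ id =
        Matrix.fromBlocks 1 (F * unitC e) 0 (B.submatrix (fun i => e (Sum.inr i)) id)ᵀ := by
      have h2 : R * (Matrix.fromCols X (unitC e)).submatrix e₀ id =
          Matrix.fromRows F Bᵀ * Matrix.fromCols X (unitC e) := by
        show (Matrix.fromRows F Bᵀ).submatrix id e₀ * (Matrix.fromCols X (unitC e)).submatrix e₀ id = _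
        rw [Matrix.submatrix_mul_equiv, Matrix.submatrix_id_id]
      rw [h2, Matrix.fromRows_mul_fromCols, hFX, hBX]
      congr 1
      ext k l
      rw [Matrix.mul_apply, Finset.sum_eq_single (e (Sum.inr l))]
      · show B (e (Sum.inr l)) k * (if e (Sum.inr l) = e (Sum.inr l) then (1 : K) else 0) = _
        rw [if_pos rfl, mul_one]
        rfl
      · intro i _ hi
        show B i k * (if i = e (Sum.inr l) then (1 : K) else 0) = 0
        rw [if_neg hi, mul_zero]
      · intro h
        exact absurd (Finset.mem_univ _) h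
    have h2 := congrArg Matrix.det h1
    rw [Matrix.det_mul, Matrix.det_fromBlocks_zero₂₁, Matrix.det_one, one_mul,
      Matrix.det_transpose] at h2
    let σ : Equiv.Perm (Fin d ⊕ Fin r) := e₀.trans e.symm
    have h3 : (Matrix.fromCols X (unitC e)).submatrix e₀ id =
        ((Matrix.fromCols X (unitC e)).submatrix e id).submatrix σ id := by
      ext i j
      show Matrix.fromCols X (unitC e) (e₀ i) j = Matrix.fromCols X (unitC e) (e (σ i)) j
      congr 1
      show e₀ i = e (e.symm (e₀ i))
      rw [Equiv.apply_symm_apply]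
    rw [h3, Matrix.det_permute, det_cols, ← mul_assoc] at h2
    exact ⟨Equiv.Perm.sign σ, h2.symm⟩
  obtain ⟨J, hJ⟩ := hB
  obtain ⟨e, he⟩ := exists_split' (d := d) hn J (mnr_injective' hJ)
  refine ⟨R.det, ?_, key⟩
  intro h0
  obtain ⟨s, hs⟩ := key e
  apply hJ
  have h1 : J = fun i => e (Sum.inr i) := funext fun i => (he i).symm
  rw [h1, hs, h0, zero_mul, zero_mul]

theorem abs_unit (v : AbsoluteValue K ℝ) (s : ℤˣ) : v ((s : ℤ) : K) = 1 := by
  rcases Int.units_eq_one_or s with h | h
  · rw [h]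
    simp
  · rw [h]
    simp

/-- the sizes of complementary minors -/
theorem sup_dual (X : Matrix (Fin n) (Fin d) K) (B : Matrix (Fin n) (Fin r) K) (hn : d + r = n)
    (hX : ∃ I, mnr X I ≠ 0) (hB : ∃ J, mnr B J ≠ 0)
    (h : ∀ k j, ∑ i, B i k * X i j = 0) :
    ∃ c : K, c ≠ 0 ∧ (∃ I J, mnr X I ≠ 0 ∧ mnr B J ≠ 0 ∧
        (mnr B J = c * mnr X I ∨ mnr B J = -(c * mnr X I))) ∧
      ∀ v : AbsoluteValue K ℝ, ⨆ J, v (mnr B J) = v c * ⨆ I, v (mnr X I) := by
  obtain ⟨c, hc, key⟩ := exists_dual X B hn hX hB h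
  obtain ⟨I₁, hI₁⟩ := hX
  obtain ⟨J₁, hJ₁⟩ := hB
  haveI : Nonempty (Fin d → Fin n) := ⟨I₁⟩
  haveI : Nonempty (Fin r → Fin n) := ⟨J₁⟩
  refine ⟨c, hc, ?_, fun v => ?_⟩
  · obtain ⟨e, he⟩ := exists_split (r := r) hn I₁ (mnr_injective' hI₁)
    obtain ⟨s, hs⟩ := key e
    have h1 : I₁ = fun i => e (Sum.inl i) := funext fun i => (he i).symm
    rw [← h1] at hs
    refine ⟨I₁, fun i => e (Sum.inr i), hI₁, ?_, ?_⟩
    · rw [hs]
      refine mul_ne_zero (mul_ne_zero hc ?_) hI₁
      rcases Int.units_eq_one_or s with h | h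
      · rw [h]; simp
      · rw [h]; simp
    · rcases Int.units_eq_one_or s with h | h
      · left
        rw [hs, h]; simp
      · right
        rw [hs, h]; simp
  · have hbX : BddAbove (Set.range fun I => v (mnr X I)) := (Set.finite_range _).bddAbove
    have hbB : BddAbove (Set.range fun J => v (mnr B J)) := (Set.finite_range _).bddAbove
    apply le_antisymm
    · refine ciSup_le fun J => ?_
      by_cases hJ : mnr B J = 0
      · rw [hJ, map_zero]
        exact mul_nonneg (v.nonneg _) (Real.iSup_nonneg fun _ => v.nonneg _)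
      · obtain ⟨e, he⟩ := exists_split' (d := d) hn J (mnr_injective' hJ)
        obtain ⟨s, hs⟩ := key e
        have h1 : J = fun i => e (Sum.inr i) := funext fun i => (he i).symm
        rw [h1, hs, map_mul, map_mul, abs_unit, mul_one]
        exact mul_le_mul_of_nonneg_left (le_ciSup hbX _) (v.nonneg _)
    · rw [Real.mul_iSup_of_nonneg (v.nonneg _)]
      refine ciSup_le fun I => ?_
      by_cases hI : mnr X I = 0
      · rw [hI, map_zero, mul_zero]
        exact Real.iSup_nonneg fun _ => v.nonneg _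
      · obtain ⟨e, he⟩ := exists_split (r := r) hn I (mnr_injective' hI)
        obtain ⟨s, hs⟩ := key e
        have h1 : I = fun i => e (Sum.inl i) := funext fun i => (he i).symm
        have h2 := congrArg v hs
        rw [map_mul, map_mul, abs_unit, mul_one, ← h1] at h2
        rw [← h2]
        exact le_ciSup hbB _

end dual

section mul

variable {K : Type*} [Field K] {n n' r : ℕ}

/-- minors of a product -/
theorem mnr_mul (T : Matrix (Fin n') (Fin n) K) (B : Matrix (Fin n) (Fin r) K)
    (J : Fin r → Fin n') :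
    mnr (T * B) J = ∑ f : Fin r → Fin n, (∏ a, T (J a) (f a)) * mnr B f := by
  have e : (T * B).submatrix J id = Matrix.of fun a => ∑ i, T (J a) i • B i := by
    ext a j
    rw [Matrix.submatrix_apply, Matrix.mul_apply, Matrix.of_apply, Finset.sum_apply]
    rfl
  have h1 : mnr (T * B) J = Matrix.detRowAlternating (fun a => ∑ i, T (J a) i • B i) := by
    unfold mnr
    rw [e]
    rfl
  rw [h1, ← AlternatingMap.coe_multilinearMap, MultilinearMap.map_sum]
  refine Finset.sum_congr rfl fun f _ => ?_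
  rw [MultilinearMap.map_smul_univ, smul_eq_mul]
  rfl

/-- size of the minors of a product -/
theorem sup_mnr_mul (v : AbsoluteValue K ℝ) (T : Matrix (Fin n') (Fin n) K)
    (B : Matrix (Fin n) (Fin r) K) {C : ℝ} (hC : ∀ i j, v (T i j) ≤ C) (J : Fin r → Fin n') :
    v (mnr (T * B) J) ≤ (n : ℝ) ^ r * (C ^ r * ⨆ f, v (mnr B f)) := by
  have hb : BddAbove (Set.range fun f => v (mnr B f)) := (Set.finite_range _).bddAbove
  rw [mnr_mul]
  calc v (∑ f : Fin r → Fin n, (∏ a, T (J a) (f a)) * mnr B f)
      ≤ ∑ f : Fin r → Fin n, v ((∏ a, T (J a) (f a)) * mnr B f) := v.sum_le _ _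
    _ ≤ ∑ _f : Fin r → Fin n, (C ^ r * ⨆ f, v (mnr B f)) := by
        refine Finset.sum_le_sum fun f _ => ?_
        rw [map_mul, map_prod]
        have h1 : ∏ a, v (T (J a) (f a)) ≤ C ^ r := by
          calc ∏ a, v (T (J a) (f a)) ≤ ∏ _a : Fin r, C :=
                Finset.prod_le_prod (fun _ _ => v.nonneg _) fun a _ => hC _ _
            _ = C ^ r := by rw [Finset.prod_const, Finset.card_univ, Fintype.card_fin]
        exact mul_le_mul h1 (le_ciSup hb f) (v.nonneg _)
          (le_trans (Finset.prod_nonneg fun _ _ => v.nonneg _) h1)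
    _ = (n : ℝ) ^ r * (C ^ r * ⨆ f, v (mnr B f)) := by
        rw [Finset.sum_const, Finset.card_univ, Fintype.card_fun, Fintype.card_fin,
          Fintype.card_fin, nsmul_eq_mul]
        push_cast
        rfl

/-- size of the minors of a product, non-archimedean case -/
theorem sup_mnr_mul_na (v : AbsoluteValue K ℝ) (hv : IsNonarchimedean v)
    (T : Matrix (Fin n') (Fin n) K)
    (B : Matrix (Fin n) (Fin r) K) {C : ℝ} (hC0 : 0 ≤ C) (hC : ∀ i j, v (T i j) ≤ C)
    (J : Fin r → Fin n') :
    v (mnr (T * B) J) ≤ C ^ r * ⨆ f, v (mnr B f) := by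
  have hb : BddAbove (Set.range fun f => v (mnr B f)) := (Set.finite_range _).bddAbove
  have h0 : 0 ≤ C ^ r * ⨆ f, v (mnr B f) :=
    mul_nonneg (pow_nonneg hC0 r) (Real.iSup_nonneg fun _ => v.nonneg _)
  rw [mnr_mul]
  have h2 : ∀ s : Finset (Fin r → Fin n),
      v (∑ f ∈ s, (∏ a, T (J a) (f a)) * mnr B f) ≤ C ^ r * ⨆ f, v (mnr B f) := by
    classical
    intro s
    induction s using Finset.induction_on with
    | empty => rw [Finset.sum_empty, map_zero]; exact h0
    | insert f s hf ih =>
      rw [Finset.sum_insert hf]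
      refine (hv _ _).trans (max_le ?_ ih)
      rw [map_mul, map_prod]
      have h1 : ∏ a, v (T (J a) (f a)) ≤ C ^ r := by
        calc ∏ a, v (T (J a) (f a)) ≤ ∏ _a : Fin r, C :=
              Finset.prod_le_prod (fun _ _ => v.nonneg _) fun a _ => hC _ _
          _ = C ^ r := by rw [Finset.prod_const, Finset.card_univ, Fintype.card_fin]
      exact mul_le_mul h1 (le_ciSup hb f) (v.nonneg _) (pow_nonneg hC0 r)
  exact h2 _

end mul

end Fermat.Agent.MWS
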