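import Fermat.Agent.MWS.Section
import Fermat.Agent.MWS.Dual
import Fermat.Agent.MWS.EmbB
import Fermat.Agent.MWG.Setup

/-!
# Galois-stable minors on a curve
-/

set_option autoImplicit false
set_option linter.unusedSectionVars false
set_option linter.style.haveILetI false

noncomputable section

namespace Fermat.Agent.MWS

open AlgebraicCurve Fermat.Agent.Curves Fermat.Agent.PicFlat Fermat.Agent.MWH Fermat.Agent.MWG
open SemilinearAut Matrix
open scoped Pointwise

variable {K F : Type*} [Field K] [IsAlgClosed K] [CharZero K] [Field F] [Algebra K F]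
  [IsFunctionField K F]

/-- an absolute value bounded on natural numbers is non-archimedean -/
theorem isNonarch {L : Type*} [Field L] (v : AbsoluteValue L ℝ) (h : ∀ n : ℕ, v (n : L) ≤ 1) :
    IsNonarchimedean v := by
  letI := v.toNormedField
  have h1 : IsUltrametricDist L :=
    IsUltrametricDist.isUltrametricDist_of_forall_norm_natCast_le_one h
  exact h1.isNonarchimedean_norm

theorem padicNorm_nat_le (p : Nat.Primes) (n : ℕ) : ((padicNorm p (n : ℚ) : ℚ) : ℝ) ≤ 1 := by
  haveI : Fact (p : ℕ).Prime := ⟨p.2⟩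
  have := padicNorm.of_nat (p := p) n
  exact_mod_cast this

/-- the absolute values of the global data -/
def toQAV (𝒢 : Glob K F) : QAV K where
  nv := 𝒢.A.nv
  inf q := by rw [eq_ratCast]; exact 𝒢.nv_inf q
  fin p q := by rw [eq_ratCast]; exact 𝒢.nv_p p q
  na p := isNonarch _ fun n => by
    have := 𝒢.nv_p p (n : ℚ)
    rw [Rat.cast_natCast] at this
    rw [this]
    exact padicNorm_nat_le p n
  triv := 𝒢.A.fin

theorem na_p (𝒢 : Glob K F) (p : Nat.Primes) : IsNonarchimedean (𝒢.A.nv (some p)) :=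
  (toQAV 𝒢).na p

/-- the product formula for square roots of rational numbers -/
theorem LG_sqrt (𝒢 : Glob K F) {α : K} (h0 : α ≠ 0) {q : ℚ} (hq : α ^ 2 = (q : K)) :
    LG (fun v => 𝒢.A.nv v α) = 0 :=
  (toQAV 𝒢).sum_sqrt h0 (q := q) (by rw [hq, eq_ratCast])

/-! ### Galois action on coordinates -/

theorem smul_mem_iff (σ : SemilinearAut K F) (P : Place K F) {f : F}
    (hf : f ∈ P.toValuationSubring) : σ • f ∈ (σ • P).toValuationSubring := by
  rcases eq_or_ne f 0 with rfl | hf0
  · rw [smul_zero]; exact zero_mem _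
  have hf0' : σ • f ≠ 0 := by
    rw [SemilinearAut.smul_def]; exact (map_ne_zero_iff _ (RingEquiv.injective _)).mpr hf0
  rw [mem_iff_ord _ hf0', SemilinearAut.ord_smul]
  exact (mem_iff_ord _ hf0).1 hf

theorem value_smulG (σ : SemilinearAut K F) (P : Place K F) {f : F}
    (hf : f ∈ P.toValuationSubring) : value (σ • P) (σ • f) = baseAut σ (value P f) := by
  rw [value_eq_iff _ (smul_mem_iff σ P hf), ← SemilinearAut.smul_algebraMap, ← smul_sub,
    val_lt_one_iff]
  rcases (val_lt_one_iff P).1 (value_spec P hf) with h | h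
  · left
    rw [h, smul_zero]
  · right
    rw [SemilinearAut.ord_smul]
    exact h

theorem smul_ne_inf (𝒢 : Glob K F) {σ : SemilinearAut K F} (hσ : σ ∈ 𝒢.G) {P : Place K F}
    (hP : P ≠ 𝒢.inf) : σ • P ≠ 𝒢.inf := by
  intro h
  apply hP
  have := 𝒢.fixinf σ⁻¹ (inv_mem hσ)
  rw [← h, inv_smul_smul] at this
  rw [this, h]

theorem x_smul {𝒢 : Glob K F} {E : Emb K F} (hE : 𝒢.Good E) {σ : SemilinearAut K F}
    (hσ : σ ∈ 𝒢.G) (P : Place K F) (i : Fin (E.r + 1)) :
    E.x (σ • P) i = baseAut σ (E.x P i) := by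
  by_cases hP : P = E.inf
  · rw [hP, hE.inf, 𝒢.fixinf σ hσ, ← hE.inf, EB.x_inf]
    split_ifs
    · rw [map_one]
    · rw [map_zero]
  · have h1 : σ • P ≠ E.inf := by
      rw [hE.inf] at hP ⊢
      exact smul_ne_inf 𝒢 hσ hP
    rw [EB.x_of_ne E hP, EB.x_of_ne E h1, ← value_smulG σ P (EB.f_mem E hP i), hE.fix i σ hσ]

/-- coordinates of a fixed section are rational -/
theorem coords_rat {𝒢 : Glob K F} {E : Emb K F} (hE : 𝒢.Good E) {c : Fin (E.r + 1) → K}
    (h : 𝒢.Fix (E.G c)) (i : Fin (E.r + 1)) : ∃ q : ℚ, (q : K) = c i := by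
  refine 𝒢.fixQ _ fun σ hσ => ?_
  have h1 : E.G (fun i => baseAut σ (c i)) = E.G c := by
    rw [← h σ hσ, Emb.G, Emb.G, Finset.smul_sum]
    refine Finset.sum_congr rfl fun j _ => ?_
    rw [smul_smul', hE.fix j σ hσ]
  have h2 : E.G (fun i => baseAut σ (c i) - c i) = 0 := by
    have h3 : E.G (fun i => baseAut σ (c i) - c i) = E.G (fun i => baseAut σ (c i)) - E.G c := by
      simp only [Emb.G, sub_smul, Finset.sum_sub_distrib]
    rw [h3, h1, sub_self]
  have h4 := congrFun (EB.G_eq_zero E h2) i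
  exact sub_eq_zero.1 h4

/-- the matrix of coordinates -/
def Xm (E : Emb K F) {d : ℕ} (P : Fin d → Place K F) : Matrix (Fin (E.r + 1)) (Fin d) K :=
  Matrix.of fun i j => E.x (P j) i

theorem mnr_Xm (E : Emb K F) {d : ℕ} (P : Fin d → Place K F) (I : Fin d → Fin (E.r + 1)) :
    mnr (Xm E P) I = Matrix.det (Matrix.of fun i j => E.x (P i) (I j)) := by
  unfold mnr
  rw [← Matrix.det_transpose]
  rfl

theorem slat_eq {ι : Type*} (E : Emb K F) (A : AVFam K ι) (v : ι) {d : ℕ}
    (P : Fin d → Place K F) : slat E A v P = ⨆ I, A.nv v (mnr (Xm E P) I) := by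
  unfold slat AVFam.nrm
  exact iSup_congr fun I => by rw [mnr_Xm]

/-- products of minors of a stable family are rational -/
theorem mnr_rat {𝒢 : Glob K F} {E : Emb K F} (hE : 𝒢.Good E) {d : ℕ} (P : Fin d → Place K F)
    (hP : Function.Injective P) (hst : ∀ σ ∈ 𝒢.G, ∀ j, ∃ k, σ • P j = P k)
    (I I' : Fin d → Fin (E.r + 1)) :
    ∃ q : ℚ, mnr (Xm E P) I * mnr (Xm E P) I' = (q : K) := by
  classical
  have h : ∃ q : ℚ, (q : K) = mnr (Xm E P) I * mnr (Xm E P) I' := by
    refine 𝒢.fixQ _ fun σ hσ => ?_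
    choose π hπ using hst σ hσ
    have hinj : Function.Injective π := by
      intro a b hab
      apply hP
      have h1 : σ • P a = σ • P b := by rw [hπ, hπ, hab]
      exact MulAction.injective σ h1
    let π' : Equiv.Perm (Fin d) := Equiv.ofBijective π (Finite.injective_iff_bijective.1 hinj)
    have key : ∀ I : Fin d → Fin (E.r + 1),
        baseAut σ (mnr (Xm E P) I) = ((Equiv.Perm.sign π' : ℤ) : K) * mnr (Xm E P) I := by
      intro I
      rw [mnr_Xm, RingEquiv.map_det, ← Matrix.det_permute]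
      congr 1
      ext i j
      rw [RingEquiv.mapMatrix_apply, Matrix.map_apply, Matrix.of_apply, Matrix.submatrix_apply,
        Matrix.of_apply, ← x_smul hE hσ, hπ]
      rfl
    rw [map_mul, key, key]
    have h2 : (((Equiv.Perm.sign π' : ℤˣ) : ℤ) : K) * (((Equiv.Perm.sign π' : ℤˣ) : ℤ) : K) = 1 := by
      rcases Int.units_eq_one_or (Equiv.Perm.sign π') with h | h
      · rw [h]; simp
      · rw [h]; simp
    calc _ = ((((Equiv.Perm.sign π' : ℤˣ) : ℤ) : K) * (((Equiv.Perm.sign π' : ℤˣ) : ℤ) : K)) *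
          (mnr (Xm E P) I * mnr (Xm E P) I') := by ring
      _ = _ := by rw [h2, one_mul]
  obtain ⟨q, hq⟩ := h
  exact ⟨q, hq.symm⟩

/-! ### Linear algebra -/

/-- rows spanning the whole space have a non-zero minor -/
theorem exists_mnr_of_span {n d : ℕ} {L : Type*} [Field L] (X : Matrix (Fin n) (Fin d) L)
    (h : Submodule.span L (Set.range X.row) = ⊤) : ∃ I, mnr X I ≠ 0 := by
  classical
  obtain ⟨κ, a, ha, hspan, hli⟩ := exists_linearIndependent' L X.row
  rw [h] at hspan
  let b := Module.Basis.mk hli hspan.ge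
  haveI : Finite κ := Finite.of_injective a ha
  haveI : Fintype κ := Fintype.ofFinite κ
  have hcard : Fintype.card κ = d := by
    have h1 := Module.finrank_eq_card_basis b
    rw [Module.finrank_fin_fun] at h1
    exact h1.symm
  let e : Fin d ≃ κ := (Fintype.equivFinOfCardEq hcard).symm
  refine ⟨fun i => a (e i), ?_⟩
  have h2 : LinearIndependent L (fun i : Fin d => X.row (a (e i))) :=
    hli.comp e e.injective
  have h3 : IsUnit (X.submatrix (fun i => a (e i)) id) :=
    Matrix.linearIndependent_rows_iff_isUnit.1 h2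
  rw [Matrix.isUnit_iff_isUnit_det] at h3
  exact h3.ne_zero

/-- independent columns have a non-zero minor -/
theorem exists_mnr_of_li {n d : ℕ} {L : Type*} [Field L] (X : Matrix (Fin n) (Fin d) L)
    (h : LinearIndependent L X.col) : ∃ I, mnr X I ≠ 0 := by
  apply exists_mnr_of_span
  apply Submodule.eq_top_of_finrank_eq
  rw [← Matrix.rank_eq_finrank_span_row, Matrix.rank_eq_finrank_span_cols,
    finrank_span_eq_card h, Fintype.card_fin, Module.finrank_fin_fun]

end Fermat.Agent.MWS
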