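import Fermat.Agent.MWS.Siegel
import Fermat.Agent.MWS.QAV

/-!
# Small integral solutions of Galois-stable linear systems
-/

set_option autoImplicit false

noncomputable section

namespace Fermat.Agent.MWS

open Real Matrix

variable {K : Type*} [Field K] [Algebra ℚ K] (A : QAV K)

/-- the maximal minors of an `n × d` matrix -/
def mnr {K : Type*} [Field K] {n d : ℕ} (X : Matrix (Fin n) (Fin d) K) (I : Fin d → Fin n) : K := (X.submatrix I id).det

omit [Algebra ℚ K] in
theorem mnr_injective {n d : ℕ} {X : Matrix (Fin n) (Fin d) K} {I : Fin d → Fin n}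
    (h : mnr X I ≠ 0) : Function.Injective I := by
  intro i j hij
  by_contra hne
  apply h
  refine Matrix.det_zero_of_row_eq hne ?_
  funext k
  rw [Matrix.submatrix_apply, Matrix.submatrix_apply, hij]

/-- a complement of an injective family of indices -/
theorem exists_compl {n d : ℕ} (I : Fin d → Fin n) (hI : Function.Injective I) :
    ∃ (r : ℕ) (e : Fin d ⊕ Fin r ≃ Fin n), (∀ i, e (Sum.inl i) = I i) ∧ d + r = n := by
  classical
  let S : Finset (Fin n) := (Finset.univ.image I)ᶜ
  have hS : Finset.card S = n - d := by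
    rw [Finset.card_compl, Finset.card_image_of_injective _ hI, Finset.card_univ,
      Fintype.card_fin, Fintype.card_fin]
  have hdn : d ≤ n := by
    have := Fintype.card_le_of_injective I hI
    rwa [Fintype.card_fin, Fintype.card_fin] at this
  let g : Fin (n - d) ≃o S := S.orderIsoOfFin hS
  let F : Fin d ⊕ Fin (n - d) → Fin n := Sum.elim I (fun k => (g k : Fin n))
  have hF : Function.Injective F := by
    rintro (i | i) (j | j) h
    · exact congrArg Sum.inl (hI h)
    · exfalso
      have h1 : (g j : Fin n) ∈ S := (g j).2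
      rw [Finset.mem_compl] at h1
      apply h1
      have h2 : I i = (g j : Fin n) := h
      rw [← h2]
      exact Finset.mem_image_of_mem _ (Finset.mem_univ _)
    · exfalso
      have h1 : (g i : Fin n) ∈ S := (g i).2
      rw [Finset.mem_compl] at h1
      apply h1
      have h2 : (g i : Fin n) = I j := h
      rw [h2]
      exact Finset.mem_image_of_mem _ (Finset.mem_univ _)
    · exact congrArg Sum.inr (g.injective (Subtype.ext h))
  have hb : Function.Bijective F := by
    rw [Fintype.bijective_iff_injective_and_card]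
    refine ⟨hF, ?_⟩
    rw [Fintype.card_sum, Fintype.card_fin, Fintype.card_fin, Fintype.card_fin]
    omega
  exact ⟨n - d, Equiv.ofBijective F hb, fun i => rfl, by omega⟩

/-- **Siegel's lemma for Galois-stable systems** -/
theorem exists_section {n d : ℕ} (X : Matrix (Fin n) (Fin d) K) (hdn : d < n)
    (hne : ∃ I, mnr X I ≠ 0)
    (hrat : ∀ I I' : Fin d → Fin n, ∃ q : ℚ, mnr X I * mnr X I' = algebraMap ℚ K q) :
    ∃ c : Fin n → ℤ, c ≠ 0 ∧ (∀ j, ∑ i, (c i : K) * X i j = 0) ∧
      ∀ i, |(c i : ℝ)| ≤ n * exp (A.ht (mnr X) / (n - d : ℕ)) := by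
  classical
  obtain ⟨I₁, hI₁⟩ := hne
  haveI : Nonempty (Fin d → Fin n) := ⟨I₁⟩
  obtain ⟨I₀, hI₀⟩ := A.exists_sz none (mnr X)
  have h0 : mnr X I₀ ≠ 0 := by
    have := A.sz_pos none hI₁
    rw [hI₀] at this
    exact (A.nv none).pos_iff.mp this
  obtain ⟨r, e, he, hdr⟩ := exists_compl I₀ (mnr_injective h0)
  have hr : 0 < r := by omega
  have hnd : n - d = r := by omega
  -- the rational ratios
  have hq : ∀ I, ∃ q : ℚ, (mnr X I₀)⁻¹ * mnr X I = algebraMap ℚ K q := by
    intro I
    obtain ⟨a, ha⟩ := hrat I₀ I₀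
    obtain ⟨b, hb⟩ := hrat I I₀
    refine ⟨b / a, ?_⟩
    rw [map_div₀, ← ha, ← hb]
    field_simp
  choose q hq using hq
  obtain ⟨s, hs⟩ := hrat I₀ I₀
  have hq0 : q I₀ = 1 := by
    apply (algebraMap ℚ K).injective
    rw [← hq, inv_mul_cancel₀ h0, map_one]
  obtain ⟨D, hD, hDq, hlog⟩ := A.exists_den q I₀ hq0
  -- the height
  have hht : A.ht (mnr X) = ∑ᶠ p : Nat.Primes, log (A.sz (some p) fun I => algebraMap ℚ K (q I)) := by
    have h1 : A.ht (fun I => (mnr X I₀)⁻¹ * mnr X I) = A.ht (mnr X) := by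
      refine A.ht_mul h0 (inv_ne_zero h0) (q := s⁻¹) ?_
      rw [map_inv₀, ← hs, inv_pow, sq]
    rw [← h1]
    have h2 : (fun I => (mnr X I₀)⁻¹ * mnr X I) = fun I => algebraMap ℚ K (q I) :=
      funext fun I => hq I
    rw [h2]
    unfold QAV.ht
    rw [finsum_option (A.ht_supp (i := I₀) (by rw [hq0, map_one]; exact one_ne_zero))]
    have h3 : A.sz none (fun I => algebraMap ℚ K (q I)) = 1 := by
      apply le_antisymm
      · refine A.sz_le none _ fun I => ?_
        rw [← hq, map_mul, map_inv₀, inv_mul_le_iff₀ ((A.nv none).pos h0), mul_one, ← hI₀]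
        exact A.le_sz none (mnr X) I
      · have := A.le_sz none (fun I => algebraMap ℚ K (q I)) I₀
        rwa [hq0, map_one, map_one] at this
    rw [h3, log_one, zero_add]
  -- the matrix `Φ`
  let M₀ : Matrix (Fin d) (Fin d) K := X.submatrix I₀ id
  have hM₀ : M₀.det ≠ 0 := h0
  let Y : Matrix (Fin d ⊕ Fin r) (Fin d) K := X.submatrix e id * M₀⁻¹
  have hYdef : ∀ i l, Y i l = ∑ k, X (e i) k * M₀⁻¹ k l := fun i l => Matrix.mul_apply
  have hYl : ∀ i j, Y (Sum.inl i) j = (1 : Matrix (Fin d) (Fin d) K) i j := by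
    intro i j
    have h1 : M₀ * M₀⁻¹ = 1 := Matrix.mul_nonsing_inv _ (isUnit_iff_ne_zero.mpr hM₀)
    rw [← h1, hYdef, Matrix.mul_apply]
    refine Finset.sum_congr rfl fun k _ => ?_
    rw [he]
    rfl
  have hYdet : ∀ f : Fin d → Fin d ⊕ Fin r, (Y.submatrix f id).det = algebraMap ℚ K (q (e ∘ f)) := by
    intro f
    have h1 : Y.submatrix f id = (X.submatrix (e ∘ f) id) * M₀⁻¹ := by
      ext i j
      rw [Matrix.submatrix_apply, Matrix.mul_apply, hYdef]
      rfl
    rw [h1, Matrix.det_mul, Matrix.det_nonsing_inv, Ring.inverse_eq_inv', mul_comm, ← hq]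
    rfl
  -- entries of `Y` are rational
  let fk : Fin d → Fin r → (Fin d → Fin d ⊕ Fin r) := fun j k =>
    Function.update Sum.inl j (Sum.inr k)
  have hYr : ∀ k j, Y (Sum.inr k) j = algebraMap ℚ K (q (e ∘ fk j k)) := by
    intro k j
    rw [← hYdet]
    have h1 : (Y.submatrix (fk j k) id) = (1 : Matrix (Fin d) (Fin d) K).updateRow j (Y (Sum.inr k)) := by
      ext i l
      rw [Matrix.submatrix_apply, Matrix.updateRow_apply]
      by_cases hij : i = j
      · subst hij
        rw [if_pos rfl]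
        simp only [fk, Function.update_self, id]
      · rw [if_neg hij]
        simp only [fk, Function.update_of_ne hij, id]
        exact hYl i l
    rw [h1]
    have h2 := congrFun (congrFun (congrArg DFunLike.coe
      (Matrix.cramer_one (n := Fin d) (α := K))) (Y (Sum.inr k))) j
    rw [Matrix.cramer_apply] at h2
    rw [← Matrix.det_transpose, ← Matrix.updateCol_transpose, Matrix.transpose_one]
    exact h2.symm
  let Φ : Matrix (Fin d) (Fin r) ℚ := Matrix.of fun j k => q (e ∘ fk j k)
  have hΦY : ∀ f : Fin d → Fin d ⊕ Fin r, ((one' Φ).submatrix id f).det = q (e ∘ f) := by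
    intro f
    apply (algebraMap ℚ K).injective
    rw [← hYdet, RingHom.map_det, ← Matrix.det_transpose]
    congr 1
    ext i j
    rw [Matrix.transpose_apply, RingHom.mapMatrix_apply, Matrix.map_apply, Matrix.submatrix_apply,
      Matrix.submatrix_apply, one']
    rcases hf : f i with k | k
    · rw [Matrix.fromCols_apply_inl]
      show algebraMap ℚ K ((1 : Matrix (Fin d) (Fin d) ℚ) j k) = Y (Sum.inl k) j
      rw [hYl, Matrix.one_apply, Matrix.one_apply]
      by_cases h : k = j
      · rw [if_pos h, if_pos h.symm, map_one]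
      · rw [if_neg h, if_neg (Ne.symm h), map_zero]
    · rw [Matrix.fromCols_apply_inr]
      show algebraMap ℚ K (Φ j k) = Y (Sum.inr k) j
      rw [hYr]
      rfl
  obtain ⟨c, hc0, hcint, hcB⟩ := siegel Φ hr hD (fun f => by
    rw [hΦY]
    exact hDq _)
  choose z hz using hcint
  -- the bound
  have hB : (D : ℝ) ^ (1 / (r : ℝ)) ≤ exp (A.ht (mnr X) / (n - d : ℕ)) := by
    rw [hnd, hht]
    have h1 : (D : ℝ) = exp (log D) := (exp_log (by exact_mod_cast hD)).symm
    rw [h1, ← exp_mul]
    apply exp_le_exp.mpr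
    rw [mul_one_div]
    exact div_le_div_of_nonneg_right hlog (Nat.cast_nonneg _)
  have hE0 : 0 ≤ exp (A.ht (mnr X) / (n - d : ℕ)) := (exp_pos _).le
  have hn1 : (1 : ℝ) ≤ n := by
    have : 1 ≤ n := by omega
    exact_mod_cast this
  have hrn : (r : ℝ) ≤ n := by
    have : r ≤ n := by omega
    exact_mod_cast this
  have hΦ1 : ∀ j k, |((Φ j k : ℚ) : ℝ)| ≤ 1 := by
    intro j k
    rw [← A.inf, show Φ j k = q (e ∘ fk j k) from rfl, ← hq, map_mul, map_inv₀,
      inv_mul_le_iff₀ ((A.nv none).pos h0), mul_one, ← hI₀]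
    exact A.le_sz none (mnr X) _
  have hzB : ∀ j, |(z j : ℝ)| ≤ n * exp (A.ht (mnr X) / (n - d : ℕ)) := by
    intro j
    have h1 : ((z j : ℤ) : ℝ) = ∑ k, ((Φ j k : ℚ) : ℝ) * (c k : ℝ) := by
      have h2 := congrArg (fun t : ℚ => (t : ℝ)) (hz j)
      simp only [Matrix.mulVec, dotProduct] at h2
      push_cast at h2
      exact h2.symm
    rw [h1]
    calc |∑ k, ((Φ j k : ℚ) : ℝ) * (c k : ℝ)| ≤ ∑ k, |((Φ j k : ℚ) : ℝ) * (c k : ℝ)| :=
          Finset.abs_sum_le_sum_abs _ _
      _ ≤ ∑ _k : Fin r, exp (A.ht (mnr X) / (n - d : ℕ)) := by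
          refine Finset.sum_le_sum fun k _ => ?_
          rw [abs_mul]
          calc |((Φ j k : ℚ) : ℝ)| * |(c k : ℝ)| ≤ 1 * |(c k : ℝ)| :=
                mul_le_mul_of_nonneg_right (hΦ1 j k) (abs_nonneg _)
            _ = |(c k : ℝ)| := one_mul _
            _ ≤ _ := (hcB k).trans hB
      _ = r * exp (A.ht (mnr X) / (n - d : ℕ)) := by
          rw [Finset.sum_const, Finset.card_univ, Fintype.card_fin, nsmul_eq_mul]
      _ ≤ _ := mul_le_mul_of_nonneg_right hrn hE0
  refine ⟨fun i => Sum.elim (fun j => -z j) c (e.symm i), ?_, ?_, ?_⟩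
  · intro h
    apply hc0
    funext k
    have h1 := congrFun h (e (Sum.inr k))
    simpa using h1
  · intro j
    -- `∑ c_i X_i = (c Y) M₀`
    have h1 : ∀ l, ∑ i, ((Sum.elim (fun j => -z j) c i : ℤ) : K) * Y i l = 0 := by
      intro l
      rw [Fintype.sum_sum_type]
      simp only [Sum.elim_inl, Sum.elim_inr]
      have h2 : ∑ i, ((-z i : ℤ) : K) * Y (Sum.inl i) l = -(z l : K) := by
        rw [Finset.sum_eq_single l]
        · rw [hYl, Matrix.one_apply_eq, mul_one, Int.cast_neg]
        · intro i _ hi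
          rw [hYl, Matrix.one_apply_ne hi, mul_zero]
        · intro h
          exact absurd (Finset.mem_univ _) h
      have h3 : ∑ k, ((c k : ℤ) : K) * Y (Sum.inr k) l = (z l : K) := by
        have h4 := congrArg (algebraMap ℚ K) (hz l)
        rw [map_intCast] at h4
        rw [← h4, Matrix.mulVec, dotProduct, map_sum]
        refine Finset.sum_congr rfl fun k _ => ?_
        rw [map_mul, map_intCast, hYr, mul_comm]
        rfl
      rw [h2, h3, neg_add_cancel]
    have h2 : ∀ i, X (e i) j = ∑ l, Y i l * M₀ l j := by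
      intro i
      have h3 : Y * M₀ = X.submatrix e id := by
        rw [Matrix.mul_assoc, Matrix.nonsing_inv_mul _ (isUnit_iff_ne_zero.mpr hM₀), Matrix.mul_one]
      have h4 := congrFun (congrFun h3 i) j
      rw [Matrix.mul_apply] at h4
      exact h4.symm
    rw [← Equiv.sum_comp e]
    simp only [Equiv.symm_apply_apply]
    simp_rw [h2, Finset.mul_sum]
    rw [Finset.sum_comm]
    refine Finset.sum_eq_zero fun l _ => ?_
    simp_rw [← mul_assoc]
    rw [← Finset.sum_mul, h1 l, zero_mul]
  · intro i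
    rcases hi : e.symm i with j | k
    · simp only [Sum.elim_inl, hi]
      push_cast
      rw [abs_neg]
      exact hzB j
    · simp only [Sum.elim_inr, hi]
      refine (hcB k).trans (hB.trans ?_)
      exact le_mul_of_one_le_left hE0 hn1

end Fermat.Agent.MWS
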