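import Mathlib

/-!
# Siegel's lemma with the Plücker height

If `Φ` is a rational `d × r` matrix with entries of absolute value at most one, and `D` is a
denominator for all the maximal minors of `(1 | Φ)`, then there is a non-zero integral vector `c`
with `Φ c` integral and entries of absolute value at most `D ^ (1 / r)`.
-/

set_option autoImplicit false

namespace Fermat.Agent.MWS

open Matrix Module

variable {d r : ℕ}

/-- the matrix `(1 | Φ)` -/
def one' (Φ : Matrix (Fin d) (Fin r) ℚ) : Matrix (Fin d) (Fin d ⊕ Fin r) ℚ :=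
  Matrix.fromCols 1 Φ

/-- the lattice spanned by the columns of `(1 | Φ)` -/
def latt (Φ : Matrix (Fin d) (Fin r) ℚ) : Submodule ℤ (Fin d → ℚ) :=
  Submodule.span ℤ (Set.range fun k => (one' Φ)ᵀ k)

theorem col_mem (Φ : Matrix (Fin d) (Fin r) ℚ) (k : Fin d ⊕ Fin r) : (one' Φ)ᵀ k ∈ latt Φ :=
  Submodule.subset_span ⟨k, rfl⟩

theorem single_mem (Φ : Matrix (Fin d) (Fin r) ℚ) (i : Fin d) :
    (Pi.single i 1 : Fin d → ℚ) ∈ latt Φ := by
  have h := col_mem Φ (Sum.inl i)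
  have e : (one' Φ)ᵀ (Sum.inl i) = Pi.single i 1 := by
    funext j
    rw [one', Matrix.transpose_apply, Matrix.fromCols_apply_inl, Matrix.one_apply,
      Pi.single_apply]
  rwa [e] at h

theorem mulVec_mem (Φ : Matrix (Fin d) (Fin r) ℚ) (c : Fin r → ℤ) :
    Φ *ᵥ (fun j => (c j : ℚ)) ∈ latt Φ := by
  have e : Φ *ᵥ (fun j => (c j : ℚ)) = ∑ j, c j • (one' Φ)ᵀ (Sum.inr j) := by
    funext i
    rw [Matrix.mulVec, dotProduct, Finset.sum_apply]
    refine Finset.sum_congr rfl fun j _ => ?_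
    rw [Pi.smul_apply, Matrix.transpose_apply, one', Matrix.fromCols_apply_inr, zsmul_eq_mul,
      mul_comm]
  rw [e]
  exact Submodule.sum_mem _ fun j _ => Submodule.smul_mem _ _ (col_mem Φ _)

/-- a rational basis generating the lattice -/
theorem exists_basis (Φ : Matrix (Fin d) (Fin r) ℚ) :
    ∃ b : Basis (Fin d) ℚ (Fin d → ℚ), Submodule.span ℤ (Set.range b) = latt Φ := by
  have : Module.Finite ℤ (latt Φ) :=
    Module.Finite.iff_fg.mpr (Submodule.fg_span (Set.finite_range _))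
  have : Module.IsTorsionFree ℤ (latt Φ) := inferInstance
  have : Module.Free ℤ (latt Φ) := inferInstance
  let b := Module.Free.chooseBasis ℤ (latt Φ)
  have h1 : LinearIndependent ℤ (fun i => (b i : Fin d → ℚ)) :=
    b.linearIndependent.map' (latt Φ).subtype (Submodule.ker_subtype _)
  have h2 : LinearIndependent ℚ (fun i => (b i : Fin d → ℚ)) :=
    (LinearIndependent.iff_fractionRing ℤ ℚ).mp h1
  have hspan : Submodule.span ℤ (Set.range fun i => (b i : Fin d → ℚ)) = latt Φ := by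
    have h3 := b.span_eq
    have h4 := congrArg (Submodule.map (latt Φ).subtype) h3
    rw [Submodule.map_span, Submodule.map_top, Submodule.range_subtype] at h4
    refine Eq.trans ?_ h4
    congr 1
    rw [← Set.range_comp]
    rfl
  have h5 : ⊤ ≤ Submodule.span ℚ (Set.range fun i => (b i : Fin d → ℚ)) := by
    have h6 : ∀ x ∈ latt Φ, x ∈ Submodule.span ℚ (Set.range fun i => (b i : Fin d → ℚ)) := by
      intro x hx
      rw [← hspan] at hx
      exact Submodule.span_subset_span ℤ ℚ _ hx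
    rw [← (Pi.basisFun ℚ (Fin d)).span_eq, Submodule.span_le]
    rintro _ ⟨i, rfl⟩
    rw [Pi.basisFun_apply]
    exact h6 _ (single_mem Φ i)
  let B := Basis.mk h2 h5
  have : Fintype (Module.Free.ChooseBasisIndex ℤ (latt Φ)) := inferInstance
  have hcard : Fintype.card (Module.Free.ChooseBasisIndex ℤ (latt Φ)) = d := by
    rw [← Module.finrank_eq_card_basis B, Module.finrank_fin_fun]
  let e : Module.Free.ChooseBasisIndex ℤ (latt Φ) ≃ Fin d := Fintype.equivFinOfCardEq hcard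
  refine ⟨B.reindex e, ?_⟩
  rw [Basis.range_reindex, Basis.coe_mk, hspan]

/-- the determinant of a family in the lattice -/
theorem det_family (Φ : Matrix (Fin d) (Fin r) ℚ) {D : ℕ}
    (hmin : ∀ f : Fin d → Fin d ⊕ Fin r, ∃ z : ℤ, (D : ℚ) * ((one' Φ).submatrix id f).det = z)
    (b : Fin d → Fin d → ℚ) (hb : ∀ i, b i ∈ latt Φ) :
    ∃ z : ℤ, (D : ℚ) * (Pi.basisFun ℚ (Fin d)).det b = z := by
  have h1 : ∀ i, ∃ n : Fin d ⊕ Fin r → ℤ, ∑ k, n k • (one' Φ)ᵀ k = b i := fun i =>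
    (Submodule.mem_span_range_iff_exists_fun ℤ).mp (hb i)
  choose n hn using h1
  choose z hz using hmin
  have h2 : (Pi.basisFun ℚ (Fin d)).det b =
      ∑ f : Fin d → Fin d ⊕ Fin r, (∏ i, (n i (f i) : ℚ)) * ((one' Φ).submatrix id f).det := by
    have e : b = fun i => ∑ k, (n i k : ℚ) • (one' Φ)ᵀ k := by
      funext i
      rw [← hn i]
      refine Finset.sum_congr rfl fun k _ => ?_
      rw [Int.cast_smul_eq_zsmul]
    conv_lhs => rw [e]
    rw [← AlternatingMap.coe_multilinearMap, MultilinearMap.map_sum]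
    refine Finset.sum_congr rfl fun f _ => ?_
    rw [MultilinearMap.map_smul_univ, smul_eq_mul]
    congr 1
  refine ⟨∑ f : Fin d → Fin d ⊕ Fin r, (∏ i, n i (f i)) * z f, ?_⟩
  rw [h2, Finset.mul_sum]
  push_cast
  refine Finset.sum_congr rfl fun f _ => ?_
  rw [← hz f]
  ring

/-- **Siegel's lemma** -/
theorem siegel (Φ : Matrix (Fin d) (Fin r) ℚ) (hr : 0 < r) {D : ℕ} (hD : 0 < D)
    (hmin : ∀ f : Fin d → Fin d ⊕ Fin r, ∃ z : ℤ, (D : ℚ) * ((one' Φ).submatrix id f).det = z) :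
    ∃ c : Fin r → ℤ, c ≠ 0 ∧ (∀ i, ∃ z : ℤ, (Φ *ᵥ (fun j => (c j : ℚ))) i = z) ∧
      ∀ j, |(c j : ℝ)| ≤ (D : ℝ) ^ (1 / (r : ℝ)) := by
  obtain ⟨b, hb⟩ := exists_basis Φ
  let b₁ := Pi.basisFun ℚ (Fin d)
  let L₂ : AddSubgroup (Fin d → ℚ) := (latt Φ).toAddSubgroup
  let L₁ : AddSubgroup (Fin d → ℚ) := AddSubgroup.closure (Set.range b₁)
  have hL₂ : L₂ = AddSubgroup.closure (Set.range b) := by
    rw [← Submodule.span_int_eq_addSubgroupClosure, hb]
  have hL : L₁ ≤ L₂ := by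
    rw [AddSubgroup.closure_le]
    rintro _ ⟨i, rfl⟩
    rw [Pi.basisFun_apply]
    exact single_mem Φ i
  have h1 := AddSubgroup.relIndex_eq_abs_det L₁ L₂ hL b₁ b rfl hL₂
  have h2 : b.det b₁ * b₁.det b = 1 := by
    rw [Basis.det_apply, Basis.det_apply, ← Matrix.det_mul, Basis.toMatrix_mul_toMatrix_flip,
      Matrix.det_one]
  obtain ⟨z, hz⟩ := det_family Φ hmin b (fun i => by
    rw [← hb]
    exact Submodule.subset_span ⟨i, rfl⟩)
  have h3 : (L₁.relIndex L₂ : ℚ) ≤ D := by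
    rw [h1]
    have h4 : b₁.det b ≠ 0 := right_ne_zero_of_mul_eq_one h2
    have hz0 : z ≠ 0 := by
      rintro rfl
      rw [Int.cast_zero] at hz
      rcases mul_eq_zero.mp hz with h | h
      · exact hD.ne' (by exact_mod_cast h)
      · exact h4 h
    have h5 : (1 : ℚ) ≤ |(z : ℚ)| := by
      exact_mod_cast Int.one_le_abs hz0
    rw [← hz, abs_mul, Nat.abs_cast] at h5
    have h6 : |b.det b₁| * |b₁.det b| = 1 := by rw [← abs_mul, h2, abs_one]
    have h7 : 0 < |b₁.det b| := abs_pos.mpr h4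
    calc |b.det b₁| = |b.det b₁| * 1 := (mul_one _).symm
      _ ≤ |b.det b₁| * (D * |b₁.det b|) := mul_le_mul_of_nonneg_left h5 (abs_nonneg _)
      _ = D * (|b.det b₁| * |b₁.det b|) := by ring
      _ = D := by rw [h6, mul_one]
  have h3' : L₁.relIndex L₂ ≤ D := by exact_mod_cast h3
  have h0 : L₁.relIndex L₂ ≠ 0 := by
    intro h
    rw [h, Nat.cast_zero] at h1
    have := abs_eq_zero.mp h1.symm
    rw [this, zero_mul] at h2
    exact one_ne_zero h2.symm
  -- the pigeonhole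
  let B : ℕ := ⌊(D : ℝ) ^ (1 / (r : ℝ))⌋₊
  have hB0 : (0 : ℝ) ≤ (D : ℝ) ^ (1 / (r : ℝ)) := Real.rpow_nonneg (Nat.cast_nonneg _) _
  have hB : D < (B + 1) ^ r := by
    have h4 : (D : ℝ) ^ (1 / (r : ℝ)) < (B : ℝ) + 1 := Nat.lt_floor_add_one _
    have h5 : ((D : ℝ) ^ (1 / (r : ℝ))) ^ r < ((B : ℝ) + 1) ^ r :=
      pow_lt_pow_left₀ h4 hB0 hr.ne'
    rw [← Real.rpow_natCast, ← Real.rpow_mul (Nat.cast_nonneg _), one_div,
      inv_mul_cancel₀ (by exact_mod_cast hr.ne'), Real.rpow_one] at h5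
    exact_mod_cast h5
  let Q := L₂ ⧸ L₁.addSubgroupOf L₂
  have hQ : Nat.card Q = L₁.relIndex L₂ := rfl
  have : Finite Q := Nat.finite_of_card_ne_zero (by rw [hQ]; exact h0)
  have : Fintype Q := Fintype.ofFinite Q
  let F : (Fin r → Fin (B + 1)) → Q := fun a =>
    QuotientAddGroup.mk ⟨Φ *ᵥ (fun j => (((a j : ℕ) : ℤ) : ℚ)), mulVec_mem Φ _⟩
  obtain ⟨a, a', hne, haa⟩ := Fintype.exists_ne_map_eq_of_card_lt F (by
    rw [← Nat.card_eq_fintype_card, hQ, Fintype.card_fun, Fintype.card_fin, Fintype.card_fin]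
    exact lt_of_le_of_lt h3' hB)
  refine ⟨fun j => ((a' j : ℕ) : ℤ) - ((a j : ℕ) : ℤ), ?_, ?_, ?_⟩
  · intro h
    apply hne
    funext j
    have h4 := congrFun h j
    apply Fin.ext
    simp only [Pi.zero_apply] at h4
    omega
  · have h4 := QuotientAddGroup.eq.mp haa
    rw [AddSubgroup.mem_addSubgroupOf] at h4
    have h5 : Φ *ᵥ (fun j => (((((a' j : ℕ) : ℤ) - ((a j : ℕ) : ℤ) : ℤ)) : ℚ)) ∈ L₁ := by
      have e : Φ *ᵥ (fun j => (((((a' j : ℕ) : ℤ) - ((a j : ℕ) : ℤ) : ℤ)) : ℚ)) =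
          -(Φ *ᵥ (fun j => (((a j : ℕ) : ℤ) : ℚ))) + Φ *ᵥ (fun j => (((a' j : ℕ) : ℤ) : ℚ)) := by
        rw [← Matrix.mulVec_neg, ← Matrix.mulVec_add]
        congr 1
        funext j
        simp only [Pi.neg_apply, Pi.add_apply]
        push_cast
        ring
      rw [e]
      exact h4
    have h6 : ∀ x ∈ L₁, ∀ i, ∃ z : ℤ, x i = (z : ℚ) := by
      intro x hx
      refine AddSubgroup.closure_induction (p := fun (x : Fin d → ℚ) _ => ∀ i, ∃ z : ℤ,
        x i = (z : ℚ)) ?_ ?_ ?_ ?_ hx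
      · rintro _ ⟨j, rfl⟩ i
        rw [Pi.basisFun_apply, Pi.single_apply]
        split_ifs
        · exact ⟨1, by norm_num⟩
        · exact ⟨0, by norm_num⟩
      · exact fun i => ⟨0, by norm_num⟩
      · intro x y _ _ hx hy i
        obtain ⟨m, hm⟩ := hx i
        obtain ⟨n, hn⟩ := hy i
        exact ⟨m + n, by rw [Pi.add_apply, hm, hn]; push_cast; rfl⟩
      · intro x _ hx i
        obtain ⟨m, hm⟩ := hx i
        exact ⟨-m, by rw [Pi.neg_apply, hm]; push_cast; rfl⟩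
    exact h6 _ h5
  · intro j
    have h4 : |((((a' j : ℕ) : ℤ) - ((a j : ℕ) : ℤ) : ℤ) : ℝ)| ≤ B := by
      have h5 := (a j).2
      have h6 := (a' j).2
      have h7 : |(((a' j : ℕ) : ℤ) - ((a j : ℕ) : ℤ))| ≤ (B : ℤ) := by
        rw [abs_le]
        omega
      exact_mod_cast h7
    exact h4.trans (Nat.floor_le hB0)

end Fermat.Agent.MWS
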